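import Fermat.Agent.HuaInequality.Difference
import Fermat.Agent.WaringAsymptotic.Moment

/-!
# Hua's inequality

With `2 ^ (j + 2)` variables the solutions are no more than the pairs of a difference `D` and of a
value of `∑ z ^ k - ∑ w ^ k` in `2 ^ (j + 1)` variables with zero sum. `D = 0` is rare and any other
value of `D` has `O (P ^ ε)` representations, by the bound for the divisors.
-/

set_option autoImplicit false

noncomputable section

namespace FA.HuaInequality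

open Finset Polynomial
open FA.ThreePrimes (eAdd eAdd_add conj_eAdd sum_eAdd_grid)
open FA.WaringAsymptotic (steps waringSum powerDiagonal)

/-- The pairs of tuples. -/
def pairBox (t P : ℕ) : Finset ((Fin t → ℕ) × (Fin t → ℕ)) :=
  Korobov.box (Icc 1 P) t ×ˢ Korobov.box (Icc 1 P) t

/-- `∑ z ^ k - ∑ w ^ k`. -/
def powDiff (k : ℕ) {t : ℕ} (z : (Fin t → ℕ) × (Fin t → ℕ)) : ℤ :=
  ((∑ i, z.1 i ^ k : ℕ) : ℤ) - ((∑ i, z.2 i ^ k : ℕ) : ℤ)

theorem card_powDiff_zero (k t P : ℕ) :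
    ((pairBox t P).filter fun z => powDiff k z = 0).card = powerDiagonal k t P := by
  rw [powerDiagonal, pairBox]
  congr 1
  refine filter_congr fun z _ => ?_
  rw [powDiff, sub_eq_zero, Nat.cast_inj]

theorem natAbs_powDiff_le {k t P : ℕ} {z : (Fin t → ℕ) × (Fin t → ℕ)} (hz : z ∈ pairBox t P) :
    (powDiff k z).natAbs ≤ t * P ^ k := by
  rw [pairBox, mem_product] at hz
  have hb : ∀ v ∈ Korobov.box (Icc 1 P) t, ∑ i, v i ^ k ≤ t * P ^ k := fun v hv =>
    (sum_le_card_nsmul _ _ (P ^ k) fun i _ => Nat.pow_le_pow_left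
      (mem_Icc.1 (Fintype.mem_piFinset.1 hv i)).2 k).trans (by simp)
  have h1 := hb _ hz.1
  have h2 := hb _ hz.2
  rw [powDiff]
  omega

theorem norm_waringSum_pow_eq (k t P : ℕ) (α : ℝ) :
    ((‖waringSum k P α‖ ^ (2 * t) : ℝ) : ℂ) =
      ∑ z ∈ pairBox t P, eAdd ((powDiff k z : ℝ) * α) := by
  have hf : waringSum k P α ^ t = ∑ z ∈ Korobov.box (Icc 1 P) t,
      eAdd ((∑ i, z i ^ k : ℕ) * α) := by
    have h := WaringAsymptotic.sum_eAdd_pow (Icc 1 P) (fun _ => 1) (fun n => n ^ k) t α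
    simp only [one_mul, prod_const_one] at h
    rw [Korobov.box, ← h, waringSum]
    refine congrArg (· ^ t) (sum_congr rfl fun n _ => ?_)
    push_cast
    rw [mul_comm]
  rw [mul_comm 2 t, pow_mul, Complex.ofReal_pow, ← norm_pow, ← Complex.mul_conj', hf, map_sum,
    sum_mul_sum, pairBox, sum_product]
  refine sum_congr rfl fun z _ => sum_congr rfl fun w _ => ?_
  rw [conj_eAdd, ← eAdd_add, powDiff]
  push_cast
  ring_nf

/-- **Doubling the variables.** -/
theorem exists_double_le (k j : ℕ) {P : ℕ} (hP : 1 ≤ P) :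
    ∃ S : Finset ((Fin (j + 1) → ℤ) × ℤ), S ⊆ steps (j + 1) P ×ˢ Ioc (0 : ℤ) P ∧
      (powerDiagonal k (2 ^ (j + 1)) P : ℝ) ≤ (2 * (P : ℝ)) ^ (2 ^ (j + 1) - (j + 2)) *
        ∑ z ∈ pairBox (2 ^ j) P,
          ((S.filter fun w => diffForm k j w.1 w.2 = -powDiff k z).card : ℝ) := by
  obtain ⟨S, hS, hbound⟩ := exists_phase_bound k j hP
  refine ⟨S, hS, ?_⟩
  choose T hT hle using hbound
  obtain ⟨M, hM⟩ : ∃ M, M = ∑ w ∈ S, (diffForm k j w.1 w.2).natAbs +
      ∑ z ∈ pairBox (2 ^ j) P, (powDiff k z).natAbs + 2 ^ (j + 1) * P ^ k + 1 := ⟨_, rfl⟩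
  have hM0 : (0 : ℝ) < M := Nat.cast_pos.2 (by omega)
  have hcount : ∑ r ∈ range M, T ((r : ℝ) / M) * ‖waringSum k P ((r : ℝ) / M)‖ ^ (2 * 2 ^ j) =
      M * ∑ z ∈ pairBox (2 ^ j) P,
        ((S.filter fun w => diffForm k j w.1 w.2 = -powDiff k z).card : ℝ) := by
    apply Complex.ofReal_injective
    have e : ∀ r : ℕ,
        ((T ((r : ℝ) / M) * ‖waringSum k P ((r : ℝ) / M)‖ ^ (2 * 2 ^ j) : ℝ) : ℂ) =
        ∑ z ∈ pairBox (2 ^ j) P, ∑ w ∈ S,
          eAdd (((diffForm k j w.1 w.2 + powDiff k z : ℤ) : ℝ) * r / M) := fun r => by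
      rw [Complex.ofReal_mul, hT, norm_waringSum_pow_eq, sum_mul_sum, sum_comm]
      refine sum_congr rfl fun z _ => sum_congr rfl fun w _ => ?_
      rw [← eAdd_add]
      push_cast
      ring_nf
    rw [Complex.ofReal_sum, sum_congr rfl fun r _ => e r, sum_comm, Complex.ofReal_mul,
      Complex.ofReal_sum, Complex.ofReal_natCast, mul_sum]
    refine sum_congr rfl fun z hz => ?_
    rw [sum_comm, Complex.ofReal_natCast, card_filter, Nat.cast_sum, mul_sum]
    refine sum_congr rfl fun w hw => ?_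
    rw [sum_eAdd_grid (by omega)]
    have h1 := single_le_sum (f := fun w : (Fin (j + 1) → ℤ) × ℤ =>
      (diffForm k j w.1 w.2).natAbs) (fun i _ => Nat.zero_le _) hw
    have h2 := single_le_sum (f := fun z : (Fin (2 ^ j) → ℕ) × (Fin (2 ^ j) → ℕ) =>
      (powDiff k z).natAbs) (fun i _ => Nat.zero_le _) hz
    by_cases h : diffForm k j w.1 w.2 = -powDiff k z
    · rw [if_pos h, if_pos (by rw [h, neg_add_cancel]; exact dvd_zero _)]
      simp
    · rw [if_neg h, if_neg fun hd => h ?_]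
      · simp
      · have : diffForm k j w.1 w.2 + powDiff k z = 0 :=
          Int.eq_zero_of_dvd_of_natAbs_lt_natAbs hd (by
            rw [Int.natAbs_natCast]
            have := Int.natAbs_add_le (diffForm k j w.1 w.2) (powDiff k z)
            omega)
        omega
  have hkey : (M : ℝ) * powerDiagonal k (2 ^ (j + 1)) P ≤
      (2 * (P : ℝ)) ^ (2 ^ (j + 1) - (j + 2)) * (M * ∑ z ∈ pairBox (2 ^ j) P,
        ((S.filter fun w => diffForm k j w.1 w.2 = -powDiff k z).card : ℝ)) := by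
    rw [← hcount, mul_sum, ← WaringAsymptotic.sum_norm_waringSum_pow (M := M) (by omega)]
    refine sum_le_sum fun r _ => ?_
    rw [show 2 * 2 ^ (j + 1) = 2 ^ (j + 1) + 2 * 2 ^ j by ring, pow_add, ← mul_assoc]
    exact mul_le_mul_of_nonneg_right (hle _) (pow_nonneg (norm_nonneg _) _)
  rw [mul_left_comm] at hkey
  exact le_of_mul_le_mul_left hkey hM0

theorem card_eval_eq_le (s : Finset ℤ) {r : ℤ[X]} (hr : 1 ≤ r.natDegree) {m : ℤ} (hm : m ≠ 0)
    (n : ℤ) : (s.filter fun x => m * r.eval x = n).card ≤ r.natDegree := by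
  obtain ⟨p, hp⟩ : ∃ p : ℤ[X], p = C m * r - C n := ⟨_, rfl⟩
  have hdeg : p.natDegree = r.natDegree := by
    rw [hp, natDegree_sub_C, natDegree_C_mul hm]
  have hp0 : p ≠ 0 := fun h => by simp [h] at hdeg; omega
  refine (card_le_card (t := p.roots.toFinset) fun x hx => ?_).trans
    ((Multiset.toFinset_card_le _).trans ((card_roots' p).trans hdeg.le))
  rw [Multiset.mem_toFinset, mem_roots hp0, IsRoot, hp, eval_sub, eval_mul, eval_C, eval_C,
    (mem_filter.1 hx).2, sub_self]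

theorem card_steps_dvd_le {i P : ℕ} {n : ℤ} (hn : n ≠ 0) :
    ((steps i P).filter fun v => ∏ l, v l ∣ n).card ≤ (2 * n.natAbs.divisors.card) ^ i := by
  classical
  obtain ⟨D, hD⟩ : ∃ D : Finset ℤ, D = n.natAbs.divisors.image (fun d : ℕ => (d : ℤ)) ∪
      n.natAbs.divisors.image (fun d : ℕ => -(d : ℤ)) := ⟨_, rfl⟩
  refine (card_le_card (t := Fintype.piFinset fun _ : Fin i => D) fun v hv => ?_).trans ?_
  · rw [mem_filter] at hv
    refine Fintype.mem_piFinset.2 fun l => ?_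
    have hd : (v l).natAbs ∣ n.natAbs :=
      Int.natAbs_dvd_natAbs.2 ((dvd_prod_of_mem _ (mem_univ l)).trans hv.2)
    rw [hD, mem_union, mem_image, mem_image]
    rcases Int.natAbs_eq (v l) with e | e
    · exact Or.inl ⟨_, Nat.mem_divisors.2 ⟨hd, Int.natAbs_ne_zero.2 hn⟩, e.symm⟩
    · exact Or.inr ⟨_, Nat.mem_divisors.2 ⟨hd, Int.natAbs_ne_zero.2 hn⟩, e.symm⟩
  · rw [Fintype.card_piFinset_const]
    refine Nat.pow_le_pow_left ((hD ▸ card_union_le _ _).trans ?_) _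
    rw [two_mul]
    exact add_le_add card_image_le card_image_le

theorem card_diffForm_eq_le {k j P : ℕ} (hjk : j + 1 < k) {n : ℤ} (hn : n ≠ 0) :
    ((steps (j + 1) P ×ˢ Ioc (0 : ℤ) P).filter fun w => diffForm k j w.1 w.2 = n).card ≤
      k * (2 * n.natAbs.divisors.card) ^ (j + 1) := by
  rw [card_filter, sum_product]
  simp only [← card_filter]
  rw [← sum_filter_add_sum_filter_not _ (fun v : Fin (j + 1) → ℤ => ∏ l, v l ∣ n)]
  have h2 : ∑ v ∈ (steps (j + 1) P).filter (fun v => ¬∏ l, v l ∣ n),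
      ((Ioc (0 : ℤ) P).filter fun x => diffForm k j v x = n).card = 0 := by
    refine sum_eq_zero fun v hv => card_eq_zero.2 (filter_eq_empty_iff.2 fun x _ hx => ?_)
    obtain ⟨r, -, -, hr⟩ := exists_diffForm_eq hjk v
    exact (mem_filter.1 hv).2 ⟨r.eval x, by rw [← hx, hr]⟩
  rw [h2, add_zero]
  refine (sum_le_card_nsmul _ _ k fun v hv => ?_).trans ?_
  · obtain ⟨r, hr1, hrk, hr⟩ := exists_diffForm_eq hjk v
    have hm : ∏ l, v l ≠ 0 := fun h => hn (zero_dvd_iff.1 (h ▸ (mem_filter.1 hv).2))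
    simp only [hr]
    exact (card_eval_eq_le _ hr1 hm n).trans hrk
  · rw [smul_eq_mul, mul_comm]
    exact Nat.mul_le_mul_left k (card_steps_dvd_le hn)

theorem card_diffForm_zero_le {k j P : ℕ} (hjk : j + 1 < k) (hP : 1 ≤ P) :
    ((steps (j + 1) P ×ˢ Ioc (0 : ℤ) P).filter fun w => diffForm k j w.1 w.2 = 0).card ≤
      (j + 1 + k) * 2 ^ (j + 1) * P ^ (j + 1) := by
  rw [card_filter, sum_product]
  simp only [← card_filter]
  rw [← sum_filter_add_sum_filter_not _ (fun v : Fin (j + 1) → ℤ => ∏ l, v l = 0)]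
  refine (add_le_add (sum_le_card_nsmul _ _ P fun v _ => (card_filter_le _ _).trans (by simp))
    (sum_le_card_nsmul _ _ k fun v hv => ?_)).trans ?_
  · obtain ⟨r, hr1, hrk, hr⟩ := exists_diffForm_eq hjk v
    simp only [hr]
    exact (card_eval_eq_le _ hr1 (mem_filter.1 hv).2 0).trans hrk
  · rw [smul_eq_mul, smul_eq_mul]
    have h1 := WaringAsymptotic.card_steps_zero_le (j := j + 1) hP
    rw [Nat.add_sub_cancel] at h1
    have h2 : ((steps (j + 1) P).filter fun v => ¬∏ l, v l = 0).card ≤ (2 * P) ^ (j + 1) := by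
      refine (card_filter_le _ _).trans ?_
      rw [steps, Fintype.card_piFinset_const, Int.card_Ioo]
      exact Nat.pow_le_pow_left (by omega) _
    refine (add_le_add (Nat.mul_le_mul_right P h1) (Nat.mul_le_mul_right k h2)).trans ?_
    calc (j + 1) * (2 * P) ^ j * P + (2 * P) ^ (j + 1) * k
        ≤ (j + 1) * (2 * P) ^ j * (2 * P) + (2 * P) ^ (j + 1) * k :=
          add_le_add_left (Nat.mul_le_mul_left _ (by omega)) _
      _ = _ := by rw [mul_pow, mul_pow]; ring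

theorem powerDiagonal_one_le {k P : ℕ} (hk : 1 ≤ k) : powerDiagonal k 1 P ≤ P := by
  rw [powerDiagonal]
  refine (card_le_card_of_injOn (t := Icc 1 P) (fun z => z.1 0) (fun z hz => ?_)
    fun z hz z' hz' e => ?_).trans (by simp)
  · rw [mem_coe, mem_filter, mem_product] at hz
    exact Fintype.mem_piFinset.1 hz.1.1 0
  · simp only [mem_coe, mem_filter, Fin.sum_univ_one] at hz hz'
    have h1 : z.1 0 = z.2 0 := Nat.pow_left_injective (by omega) hz.2
    have h2 : z'.1 0 = z'.2 0 := Nat.pow_left_injective (by omega) hz'.2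
    dsimp only at e
    refine Prod.ext (funext fun i => ?_) (funext fun i => ?_) <;> rw [Subsingleton.elim i 0]
    · exact e
    · omega

theorem exists_diffForm_count {k j : ℕ} (hjk : j + 1 < k) {ε : ℝ} (hε : 0 < ε) :
    ∃ N : ℝ, 0 < N ∧ ∀ P : ℕ, 1 ≤ P → ∀ S ⊆ steps (j + 1) P ×ˢ Ioc (0 : ℤ) P,
      ∀ z ∈ pairBox (2 ^ j) P,
        ((S.filter fun w => diffForm k j w.1 w.2 = -powDiff k z).card : ℝ) ≤
          (if powDiff k z = 0 then N * (P : ℝ) ^ (j + 1) else 0) + N * (P : ℝ) ^ ε := by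
  obtain ⟨ε', hε'⟩ : ∃ e : ℝ, e = ε / (k * (j + 1 : ℕ)) := ⟨_, rfl⟩
  have hk0 : (0 : ℝ) < k := Nat.cast_pos.2 (by omega)
  have hε'0 : 0 < ε' := hε' ▸ by positivity
  obtain ⟨D, hD1, hD⟩ := RepresentationBound.card_divisors_isBigO ε' hε'0
  obtain ⟨N, hN⟩ : ∃ N : ℝ, N = ((j + 1 + k) * 2 ^ (j + 1) : ℕ) +
      k * (2 * (D * ((2 ^ j : ℕ) : ℝ) ^ ε')) ^ (j + 1) + 1 := ⟨_, rfl⟩
  have hN0 : 0 < N := hN ▸ by positivity
  refine ⟨N, hN0, fun P hP S hS z hz => ?_⟩
  have hP0 : (0 : ℝ) < P := Nat.cast_pos.2 hP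
  refine (Nat.cast_le.2 (card_le_card (filter_subset_filter _ hS))).trans ?_
  split_ifs with h
  · rw [h, neg_zero]
    refine (Nat.cast_le.2 (card_diffForm_zero_le hjk hP)).trans
      (le_trans ?_ (le_add_of_nonneg_right (by positivity)))
    rw [Nat.cast_mul, Nat.cast_pow]
    refine mul_le_mul_of_nonneg_right ?_ (by positivity)
    have : 0 ≤ (k : ℝ) * (2 * (D * ((2 ^ j : ℕ) : ℝ) ^ ε')) ^ (j + 1) := by positivity
    rw [hN]
    linarith
  · rw [zero_add]
    refine (Nat.cast_le.2 (card_diffForm_eq_le hjk (neg_ne_zero.2 h))).trans ?_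
    rw [Int.natAbs_neg]
    push_cast
    have hτ : ((powDiff k z).natAbs.divisors.card : ℝ) ≤
        D * ((2 ^ j : ℕ) : ℝ) ^ ε' * ((P : ℝ) ^ k) ^ ε' := by
      refine (hD _ (Int.natAbs_ne_zero.2 h)).trans ?_
      rw [mul_assoc, ← Real.mul_rpow (by positivity) (by positivity)]
      refine mul_le_mul_of_nonneg_left (Real.rpow_le_rpow (Nat.cast_nonneg _) ?_ hε'0.le)
        (by linarith)
      exact_mod_cast natAbs_powDiff_le hz
    have e : (((P : ℝ) ^ k) ^ ε') ^ (j + 1) = (P : ℝ) ^ ε := by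
      rw [← Real.rpow_natCast (P : ℝ) k, ← Real.rpow_mul hP0.le, ← Real.rpow_natCast _ (j + 1),
        ← Real.rpow_mul hP0.le]
      congr 1
      rw [hε']
      field_simp
    calc (k : ℝ) * (2 * ((powDiff k z).natAbs.divisors.card : ℝ)) ^ (j + 1)
        ≤ k * (2 * (D * ((2 ^ j : ℕ) : ℝ) ^ ε' * ((P : ℝ) ^ k) ^ ε')) ^ (j + 1) := by gcongr
      _ = k * (2 * (D * ((2 ^ j : ℕ) : ℝ) ^ ε')) ^ (j + 1) * (P : ℝ) ^ ε := by
          rw [← e, ← mul_assoc 2, mul_pow]
          ring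
      _ ≤ _ := by
          refine mul_le_mul_of_nonneg_right ?_ (by positivity)
          have : (0 : ℝ) ≤ ((j + 1 + k) * 2 ^ (j + 1) : ℕ) := Nat.cast_nonneg _
          rw [hN]
          linarith

/-- **Hua's inequality.** -/
theorem exists_powerDiagonal_le_hua : ∀ {k j : ℕ}, j < k → ∀ {ε : ℝ}, 0 < ε → ∃ C : ℝ, 0 < C ∧
    ∀ P : ℕ, 1 ≤ P → (powerDiagonal k (2 ^ j) P : ℝ) ≤
      C * (P : ℝ) ^ (2 ^ (j + 1) - (j + 1)) * (P : ℝ) ^ ε := by
  intro k j
  induction j with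
  | zero =>
    intro hk ε hε
    refine ⟨1, one_pos, fun P hP => ?_⟩
    rw [pow_zero, one_mul, show 2 ^ (0 + 1) - (0 + 1) = 1 by rfl, pow_one]
    refine le_trans ?_ (le_mul_of_one_le_right (Nat.cast_nonneg P)
      (Real.one_le_rpow (by exact_mod_cast hP) hε.le))
    exact_mod_cast powerDiagonal_one_le (show 1 ≤ k by omega)
  | succ j ih =>
    intro hjk ε hε
    obtain ⟨C, hC, hih⟩ := ih (by omega) hε
    obtain ⟨N, hN, hcount⟩ := exists_diffForm_count hjk hε
    refine ⟨2 ^ (2 ^ (j + 1) - (j + 2)) * (N * C + N), by positivity, fun P hP => ?_⟩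
    obtain ⟨S, hS, hdouble⟩ := exists_double_le k j hP
    refine hdouble.trans ((mul_le_mul_of_nonneg_left (sum_le_sum fun z hz => hcount P hP S hS z hz)
      (by positivity)).trans ?_)
    rw [sum_add_distrib, ← sum_filter, sum_const, sum_const, nsmul_eq_mul, nsmul_eq_mul,
      card_powDiff_zero]
    have hZ : ((pairBox (2 ^ j) P).card : ℝ) = (P : ℝ) ^ 2 ^ (j + 1) := by
      rw [pairBox, card_product, Korobov.box, Fintype.card_piFinset_const, Nat.card_Icc,
        Nat.add_sub_cancel, ← pow_add, Nat.cast_pow]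
      congr 1
      rw [pow_succ]
      omega
    have hj2 : j + 1 ≤ 2 ^ (j + 1) := Nat.lt_two_pow_self.le
    have hj3 : j + 2 ≤ 2 ^ (j + 1) := Nat.lt_two_pow_self
    have hdiag := mul_le_mul_of_nonneg_right (hih P hP)
      (show 0 ≤ N * (P : ℝ) ^ (j + 1) by positivity)
    rw [show C * (P : ℝ) ^ (2 ^ (j + 1) - (j + 1)) * (P : ℝ) ^ ε * (N * (P : ℝ) ^ (j + 1)) =
      N * C * ((P : ℝ) ^ (2 ^ (j + 1) - (j + 1)) * (P : ℝ) ^ (j + 1)) * (P : ℝ) ^ ε by ring,
      ← pow_add, Nat.sub_add_cancel hj2] at hdiag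
    rw [hZ]
    refine (mul_le_mul_of_nonneg_left (add_le_add_left hdiag _) (by positivity)).trans
      (le_of_eq ?_)
    rw [mul_pow, show 2 ^ (j + 1 + 1) - (j + 1 + 1) = 2 ^ (j + 1) - (j + 2) + 2 ^ (j + 1) by
      rw [pow_succ _ (j + 1)]; omega, pow_add _ (2 ^ (j + 1) - (j + 2))]
    ring

end FA.HuaInequality

end
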