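import Fermat.Agent.WaringAsymptotic.Weyl
import Mathlib.Algebra.Polynomial.Taylor

/-!
# Differencing with the phase kept

`|∑ e (α φ x)| ^ (2 ^ j)` is bounded by the sums of `e (α ·)` of the `j`-th differences of `φ`; for
`φ x = x ^ k` the difference with steps `h` is `∏ h` times a polynomial of degree `k - j`.
-/

set_option autoImplicit false

noncomputable section

namespace FA.HuaInequality

open Finset Polynomial
open FA.ThreePrimes (eAdd eAdd_add conj_eAdd)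
open FA.WaringAsymptotic (steps sum_piFinset_succ)

/-- The `j`-th difference of `φ` with the steps `h`. -/
def iterDiff : (j : ℕ) → (Fin j → ℤ) → (ℤ → ℤ) → ℤ → ℤ
  | 0, _, φ => φ
  | j + 1, h, φ => iterDiff j (Fin.tail h) fun x => φ (x + h 0) - φ x

/-- `Δ_a q = a r` with `deg r = deg q - 1`. -/
theorem exists_difference {q : ℤ[X]} {n : ℕ} (hq : q.natDegree = n + 1) (a : ℤ) :
    ∃ r : ℤ[X], r.natDegree = n ∧ ∀ x, q.eval (x + a) - q.eval x = a * r.eval x := by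
  refine ⟨∑ i ∈ range (n + 1), C (a ^ i) * hasseDeriv (i + 1) q,
    natDegree_eq_of_le_of_coeff_ne_zero (natDegree_sum_le_of_forall_le _ _ fun i _ =>
      (natDegree_C_mul_le _ _).trans ((natDegree_hasseDeriv_le q (i + 1)).trans (by omega))) ?_,
    fun x => ?_⟩
  · rw [finsetSum_coeff, sum_eq_single 0]
    · rw [pow_zero, map_one, one_mul, hasseDeriv_coeff, zero_add]
      refine mul_ne_zero (Nat.cast_ne_zero.2 (Nat.choose_pos (by omega)).ne') ?_
      rw [← hq]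
      exact leadingCoeff_ne_zero.2 fun e => by simp [e] at hq
    · intro i _ hi
      rw [coeff_C_mul, hasseDeriv_coeff, coeff_eq_zero_of_natDegree_lt (by omega), mul_zero,
        mul_zero]
    · simp
  · have h := eval_eq_sum_range (p := taylor x q) a
    rw [taylor_eval, natDegree_taylor, hq, sum_range_succ', pow_zero, mul_one, taylor_coeff_zero,
      add_comm a x] at h
    rw [h, add_sub_cancel_right, eval_finsetSum, mul_sum]
    refine sum_congr rfl fun i _ => ?_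
    rw [eval_mul, eval_C, taylor_coeff, pow_succ]
    ring

/-- The `j`-th difference of a polynomial. -/
theorem exists_iterDiff : ∀ (j : ℕ) (q : ℤ[X]) (c : ℤ) (h : Fin j → ℤ), j ≤ q.natDegree →
    ∃ r : ℤ[X], r.natDegree = q.natDegree - j ∧
      ∀ x, iterDiff j h (fun y => c * q.eval y) x = c * (∏ i, h i) * r.eval x := by
  intro j
  induction j with
  | zero => intro q c h _; exact ⟨q, by simp, fun x => by simp [iterDiff]⟩
  | succ j ih =>
    intro q c h hj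
    obtain ⟨r₁, hr₁, hr₁e⟩ := exists_difference
      (show q.natDegree = (q.natDegree - 1) + 1 by omega) (h 0)
    obtain ⟨r, hr, hre⟩ := ih r₁ (c * h 0) (Fin.tail h) (by omega)
    refine ⟨r, by omega, fun x => ?_⟩
    have e : (fun y => c * q.eval (y + h 0) - c * q.eval y) = fun y => c * h 0 * r₁.eval y :=
      funext fun y => by rw [← mul_sub, hr₁e, mul_assoc]
    rw [iterDiff, e, hre, Fin.prod_univ_succ]
    simp only [Fin.tail]
    ring

/-- The phase after `j` steps and the squaring: the step of the square is `v 0`. -/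
def diffForm (k j : ℕ) (v : Fin (j + 1) → ℤ) (x : ℤ) : ℤ :=
  iterDiff j (Fin.tail v) (fun y => y ^ k) (x + v 0) - iterDiff j (Fin.tail v) (fun y => y ^ k) x

/-- It is `∏ v` times a nonconstant polynomial. -/
theorem exists_diffForm_eq {k j : ℕ} (hjk : j + 1 < k) (v : Fin (j + 1) → ℤ) :
    ∃ r : ℤ[X], 1 ≤ r.natDegree ∧ r.natDegree ≤ k ∧
      ∀ x, diffForm k j v x = (∏ i, v i) * r.eval x := by
  obtain ⟨r₁, hr₁, hr₁e⟩ := exists_iterDiff j (X ^ k : ℤ[X]) 1 (Fin.tail v)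
    (by rw [natDegree_X_pow]; omega)
  rw [natDegree_X_pow] at hr₁
  simp only [one_mul, eval_pow, eval_X] at hr₁e
  obtain ⟨r, hr, hre⟩ := exists_difference (q := r₁) (n := k - j - 1) (by omega) (v 0)
  refine ⟨r, by omega, by omega, fun x => ?_⟩
  rw [diffForm, hr₁e, hr₁e, ← mul_sub, hre, Fin.prod_univ_succ]
  simp only [Fin.tail]
  ring

/-- `|∑ e (φ x)| ^ 2` over pairs of points at distance `h`. -/
theorem norm_sq_sum_eq {P : ℕ} {a b : ℤ} (hab : b - a ≤ P) (φ : ℤ → ℝ) :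
    ((‖∑ x ∈ Ioc a b, eAdd (φ x)‖ ^ 2 : ℝ) : ℂ) = ∑ h ∈ Ioo (-(P : ℤ)) P,
      ∑ x ∈ Ioc (max a (a - h)) (min b (b - h)), eAdd (φ (x + h) - φ x) := by
  push_cast
  rw [← Complex.mul_conj', map_sum, sum_mul_sum, sum_comm]
  have e : ∀ x ∈ Ioc a b, ∑ y ∈ Ioc a b, eAdd (φ y) * (starRingEnd ℂ) (eAdd (φ x)) =
      ∑ h ∈ Ioo (-(P : ℤ)) P,
        if x + h ∈ Ioc a b then eAdd (φ (x + h) - φ x) else 0 := fun x hx => by
    rw [mem_Ioc] at hx
    rw [← sum_filter]
    refine sum_nbij' (fun y => y - x) (fun h => x + h) (fun y hy => ?_)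
      (fun h hh => (mem_filter.1 hh).2) (fun y _ => by ring) (fun h _ => by ring)
      fun y _ => ?_
    · rw [mem_filter, mem_Ioo, add_sub_cancel]
      rw [mem_Ioc] at hy ⊢
      omega
    · rw [add_sub_cancel, conj_eAdd, ← eAdd_add]
      ring_nf
  rw [sum_congr rfl e, sum_comm]
  refine sum_congr rfl fun h _ => ?_
  rw [← sum_filter]
  congr 1
  ext x
  simp only [mem_filter, mem_Ioc, max_lt_iff, le_min_iff]
  omega

/-- **Differencing.** -/
theorem exists_differencing : ∀ (j : ℕ) (φ : ℤ → ℤ) {P : ℕ}, 1 ≤ P → ∀ a b : ℤ, b - a ≤ P →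
    ∃ a' b' : (Fin j → ℤ) → ℤ, (∀ h, a ≤ a' h ∧ b' h ≤ b) ∧ ∀ α : ℝ,
      ‖∑ x ∈ Ioc a b, eAdd (α * (φ x : ℝ))‖ ^ 2 ^ j ≤ (2 * (P : ℝ)) ^ (2 ^ j - (j + 1)) *
        ∑ h ∈ steps j P, ‖∑ x ∈ Ioc (a' h) (b' h), eAdd (α * (iterDiff j h φ x : ℝ))‖ := by
  intro j
  induction j with
  | zero =>
    intro φ P _ a b _
    exact ⟨fun _ => a, fun _ => b, fun _ => ⟨le_rfl, le_rfl⟩, fun α => by simp [steps, iterDiff]⟩
  | succ j ih =>
    intro φ P hP a b hab
    choose A B hAB hih using fun h : ℤ => ih (fun x => φ (x + h) - φ x) hP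
      (max a (a - h)) (min b (b - h)) (by omega)
    refine ⟨fun v => A (v 0) (Fin.tail v), fun v => B (v 0) (Fin.tail v), fun v => ?_, fun α => ?_⟩
    · have := hAB (v 0) (Fin.tail v)
      exact ⟨(le_max_left _ _).trans this.1, this.2.trans (min_le_left _ _)⟩
    obtain ⟨T, hT⟩ : ∃ T : ℤ → ℝ, T = fun h : ℤ => ‖∑ x ∈ Ioc (max a (a - h)) (min b (b - h)),
        eAdd (α * ((φ (x + h) - φ x : ℤ) : ℝ))‖ := ⟨_, rfl⟩
    have hsq : ‖∑ x ∈ Ioc a b, eAdd (α * (φ x : ℝ))‖ ^ 2 ≤ ∑ h ∈ Ioo (-(P : ℤ)) P, T h := by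
      rw [← Real.norm_of_nonneg (sq_nonneg _), ← Complex.norm_real, norm_sq_sum_eq hab]
      refine (norm_sum_le _ _).trans (le_of_eq (sum_congr rfl fun h _ => ?_))
      simp only [hT]
      refine congrArg _ (sum_congr rfl fun x _ => ?_)
      push_cast
      rw [mul_sub]
    obtain ⟨n, hn⟩ : ∃ n, 2 ^ j = n + 1 := ⟨2 ^ j - 1, by
      have := Nat.two_pow_pos j; omega⟩
    have hjn : j ≤ n := by
      have := Nat.lt_two_pow_self (n := j); omega
    have hT0 : ∀ h, 0 ≤ T h := fun h => by rw [hT]; exact norm_nonneg _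
    calc ‖∑ x ∈ Ioc a b, eAdd (α * (φ x : ℝ))‖ ^ 2 ^ (j + 1)
        = (‖∑ x ∈ Ioc a b, eAdd (α * (φ x : ℝ))‖ ^ 2) ^ (n + 1) := by
          rw [← pow_mul, ← hn, pow_succ']
      _ ≤ (∑ h ∈ Ioo (-(P : ℤ)) P, T h) ^ (n + 1) := pow_le_pow_left₀ (sq_nonneg _) hsq _
      _ ≤ ((Ioo (-(P : ℤ)) P).card : ℝ) ^ n * ∑ h ∈ Ioo (-(P : ℤ)) P, T h ^ (n + 1) :=
          pow_sum_le_card_mul_sum_pow (fun h _ => hT0 h) n
      _ ≤ (2 * (P : ℝ)) ^ n * ∑ h ∈ Ioo (-(P : ℤ)) P, (2 * (P : ℝ)) ^ (n + 1 - (j + 1)) *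
            ∑ y ∈ steps j P, ‖∑ x ∈ Ioc (A h y) (B h y),
              eAdd (α * (iterDiff j y (fun x => φ (x + h) - φ x) x : ℝ))‖ := by
          refine mul_le_mul (pow_le_pow_left₀ (Nat.cast_nonneg _) ?_ n) (sum_le_sum fun h _ => ?_)
            (sum_nonneg fun h _ => pow_nonneg (hT0 h) _) (by positivity)
          · rw [Int.card_Ioo]
            exact_mod_cast (show ((P : ℤ) - -(P : ℤ) - 1).toNat ≤ 2 * P by omega)
          · rw [hT, ← hn]
            exact hih h α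
      _ = _ := by
          rw [← mul_sum, ← mul_assoc, ← pow_add, steps, steps, sum_piFinset_succ,
            show n + (n + 1 - (j + 1)) = 2 ^ (j + 1) - (j + 1 + 1) by rw [pow_succ]; omega]
          refine congrArg _ (sum_congr rfl fun h _ => sum_congr rfl fun y _ => ?_)
          simp only [iterDiff, Fin.cons_zero, Fin.tail_cons]

/-- The pairs of steps and points after the squaring. -/
def phaseSet {j : ℕ} (P : ℕ) (a b : (Fin j → ℤ) → ℤ) : Finset ((Fin (j + 1) → ℤ) × ℤ) :=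
  (steps (j + 1) P ×ˢ Ioc (0 : ℤ) P).filter fun w =>
    w.2 ∈ Ioc (a (Fin.tail w.1)) (b (Fin.tail w.1)) ∧
      w.2 + w.1 0 ∈ Ioc (a (Fin.tail w.1)) (b (Fin.tail w.1))

theorem sum_phaseSet_eq {j P : ℕ} {a b : (Fin j → ℤ) → ℤ} (hab : ∀ h, 0 ≤ a h ∧ b h ≤ P)
    (φ : (Fin j → ℤ) → ℤ → ℝ) :
    ((∑ h ∈ steps j P, ‖∑ x ∈ Ioc (a h) (b h), eAdd (φ h x)‖ ^ 2 : ℝ) : ℂ) =
      ∑ w ∈ phaseSet P a b,
        eAdd (φ (Fin.tail w.1) (w.2 + w.1 0) - φ (Fin.tail w.1) w.2) := by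
  rw [phaseSet, sum_filter, sum_product]
  simp only [steps]
  rw [sum_piFinset_succ, sum_comm, Complex.ofReal_sum]
  refine sum_congr rfl fun h _ => ?_
  have hh := hab h
  rw [norm_sq_sum_eq (P := P) (by omega) (φ h)]
  refine sum_congr rfl fun g _ => ?_
  rw [← sum_filter]
  simp only [Fin.tail_cons, Fin.cons_zero]
  refine sum_congr ?_ fun _ _ => rfl
  ext x
  simp only [mem_filter, mem_Ioc, max_lt_iff, le_min_iff]
  omega

/-- **The square of the differencing.** -/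
theorem exists_phase_bound (k j : ℕ) {P : ℕ} (hP : 1 ≤ P) :
    ∃ S : Finset ((Fin (j + 1) → ℤ) × ℤ), S ⊆ steps (j + 1) P ×ˢ Ioc (0 : ℤ) P ∧
      ∀ α : ℝ, ∃ T : ℝ, (T : ℂ) = ∑ w ∈ S, eAdd (α * (diffForm k j w.1 w.2 : ℝ)) ∧
        ‖WaringAsymptotic.waringSum k P α‖ ^ 2 ^ (j + 1) ≤
          (2 * (P : ℝ)) ^ (2 ^ (j + 1) - (j + 2)) * T := by
  obtain ⟨a, b, hab, hdiff⟩ := exists_differencing j (fun x => x ^ k) hP 0 P (by simp)
  refine ⟨phaseSet P a b, filter_subset _ _, fun α =>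
    ⟨∑ h ∈ steps j P,
      ‖∑ x ∈ Ioc (a h) (b h), eAdd (α * (iterDiff j h (fun x => x ^ k) x : ℝ))‖ ^ 2, ?_, ?_⟩⟩
  · rw [sum_phaseSet_eq hab]
    refine sum_congr rfl fun w _ => ?_
    rw [diffForm]
    push_cast
    rw [mul_sub]
  · have hf : WaringAsymptotic.waringSum k P α =
        ∑ x ∈ Ioc (0 : ℤ) P, eAdd (α * (((fun x : ℤ => x ^ k) x : ℤ) : ℝ)) := by
      rw [WaringAsymptotic.waringSum_eq_int]
      refine sum_congr rfl fun x _ => ?_
      push_cast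
      rfl
    have h1 := pow_le_pow_left₀ (pow_nonneg (norm_nonneg _) _) (hdiff α) 2
    rw [← pow_mul, ← pow_succ, ← hf, mul_pow, ← pow_mul] at h1
    refine h1.trans ?_
    refine (mul_le_mul_of_nonneg_left (sq_sum_le_card_mul_sum_sq) (by positivity)).trans ?_
    have hcard : ((steps j P).card : ℝ) ≤ (2 * (P : ℝ)) ^ j := by
      rw [steps, Fintype.card_piFinset_const, Int.card_Ioo, Nat.cast_pow]
      refine pow_le_pow_left₀ (Nat.cast_nonneg _) ?_ _
      exact_mod_cast (show ((P : ℤ) - -(P : ℤ) - 1).toNat ≤ 2 * P by omega)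
    rw [← mul_assoc]
    refine mul_le_mul_of_nonneg_right ?_ (sum_nonneg fun h _ => sq_nonneg _)
    refine (mul_le_mul_of_nonneg_left hcard (by positivity)).trans (le_of_eq ?_)
    rw [← pow_add]
    congr 1
    have := Nat.lt_two_pow_self (n := j)
    rw [pow_succ]
    omega

end FA.HuaInequality

end
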