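import Fermat.Agent.HuaInequality.Minor
import Fermat.Agent.PrimePowerInequality.Major

/-!
# The theorem of Davenport and Heilbronn in `2 ^ k + 1` variables

Along the denominators of the approximations of an irrational ratio the weighted count is
`η J + o (P ^ (s - k))` for `s > 2 ^ k`, and the wide weight shows `J ≫ P ^ (s - k)`.
-/

set_option autoImplicit false

noncomputable section

namespace FA.HuaInequality

open Finset Filter Topology MeasureTheory
open FA.ThreePrimes (eAdd norm_eAdd eAdd_zero)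
open FA.WaringAsymptotic (waringSum norm_waringSum_le)
open FA.DiophantineInequality (gaussW gaussK gaussW_pos gaussK_pos gaussK_le_one diagForm box
  weightedCount majorIntegral prodSum continuous_prodSum norm_prodSum_le arcWidth
  integrable_kernel_mul_real continuous_eAdd)
open FA.PrimePowerInequality (decay decay_nonneg decay_pow_le convergentDen)
open scoped Real

variable {k s : ℕ}

theorem tendsto_arcWidth (hk : 2 ≤ k) (l : Fin s → ℝ) : Tendsto (arcWidth k l) atTop (𝓝 0) := by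
  have h := (DiophantineInequality.tendsto_rpow_div_natPow hk).div_const (1 + ∑ i, |l i|)
  rw [zero_div] at h
  exact h

theorem exists_waringSum_bound (hk : 2 ≤ k) {l : Fin s → ℝ} (hl : ∀ i, l i ≠ 0) (i : Fin s) :
    ∃ E : ℝ, 0 < E ∧ ∀ᶠ P : ℕ in atTop, ∀ α : ℝ, |α| ≤ arcWidth k l P →
      ‖waringSum k P (l i * α)‖ ≤ E * (P * decay k ((P : ℝ) ^ k * |α|)) := by
  obtain ⟨C, hC, hdecay⟩ := DiophantineInequality.exists_decay hk
  have hk1r : (1 : ℝ) ≤ k := by exact_mod_cast (show 1 ≤ k by omega)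
  have hli : 0 < |l i| := abs_pos.2 (hl i)
  obtain ⟨K, hK⟩ : ∃ K : ℝ, K = C * (|l i| / 2) ^ (-(1 / (k : ℝ))) := ⟨_, rfl⟩
  have hK0 : 0 < K := hK ▸ by positivity
  obtain ⟨A, hA⟩ : ∃ A : ℝ, A = 1 + |l i|⁻¹ := ⟨_, rfl⟩
  have hA1 : 1 ≤ A := hA ▸ le_add_of_nonneg_right (by positivity)
  refine ⟨(1 + A) ^ (1 / (k : ℝ)) + K, by positivity, ?_⟩
  filter_upwards [hdecay, eventually_ge_atTop 1] with P hP hP1 α hα
  have hP0 : (0 : ℝ) < P := Nat.cast_pos.2 hP1
  obtain ⟨y, hy⟩ : ∃ y, y = (P : ℝ) ^ k * |α| := ⟨_, rfl⟩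
  have hy0 : 0 ≤ y := hy ▸ by positivity
  have hd0 := decay_nonneg k hy0
  rw [← hy, add_mul]
  rcases le_or_gt y A with hyA | hyA
  · refine ((norm_waringSum_le k P _).trans ?_).trans (le_add_of_nonneg_right (by positivity))
    have h1 : 1 ≤ (1 + A) ^ (1 / (k : ℝ)) * decay k y := by
      rw [decay, Real.rpow_neg (by linarith), ← div_eq_mul_inv, one_le_div (by positivity)]
      exact Real.rpow_le_rpow (by linarith) (by linarith) (by positivity)
    calc (P : ℝ) ≤ (1 + A) ^ (1 / (k : ℝ)) * decay k y * P := le_mul_of_one_le_left hP0.le h1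
      _ = _ := by ring
  refine le_trans ?_ (le_add_of_nonneg_left (by positivity))
  have hsum : |l i| ≤ 1 + ∑ j, |l j| := by
    linarith [single_le_sum (fun j _ => abs_nonneg (l j)) (mem_univ i)]
  have h1 : |l i * α| ≤ (P : ℝ) ^ (1 / 10 : ℝ) / (P : ℝ) ^ k := by
    have hL : 0 < 1 + ∑ j, |l j| := hli.trans_le hsum
    rw [abs_mul]
    refine (mul_le_mul hsum hα (abs_nonneg _) hL.le).trans (le_of_eq ?_)
    rw [arcWidth, mul_div_cancel₀ _ hL.ne']
  have e : |l i * α| * (P : ℝ) ^ k = |l i| * y := by rw [hy, abs_mul]; ring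
  have h2 : 1 ≤ |l i * α| * (P : ℝ) ^ k := by
    rw [e]
    have := mul_le_mul_of_nonneg_left (show |l i|⁻¹ ≤ y by linarith) hli.le
    rwa [mul_inv_cancel₀ hli.ne'] at this
  refine (hP _ h1 h2).trans ?_
  rw [e]
  have h3 : |l i| / 2 * (1 + y) ≤ |l i| * y := by
    have := mul_le_mul_of_nonneg_left (show 1 + y ≤ 2 * y by linarith) hli.le
    linarith
  refine (mul_le_mul_of_nonneg_left (Real.rpow_le_rpow_of_nonpos (by positivity) h3
    (neg_nonpos.2 (by positivity))) (by positivity)).trans (le_of_eq ?_)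
  rw [Real.mul_rpow (by positivity) (by linarith), hK, decay]
  ring

/-- **The product on the arc at `0`.** -/
theorem exists_prodSum_bound (hk : 2 ≤ k) (hs : 2 * k + 1 ≤ s) {l : Fin s → ℝ}
    (hl : ∀ i, l i ≠ 0) : ∃ E : ℝ, 0 < E ∧ ∀ᶠ P : ℕ in atTop,
      ∀ α ∈ Set.Icc (-arcWidth k l P) (arcWidth k l P), ‖prodSum k P l α‖ ≤
        E * (P : ℝ) ^ s *
          (decay k ((P : ℝ) ^ k * |α|) * (1 + ((P : ℝ) ^ k * α) ^ 2)⁻¹) := by
  choose E hE h using fun i => exists_waringSum_bound hk hl i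
  refine ⟨∏ i, E i, prod_pos fun i _ => hE i, ?_⟩
  filter_upwards [eventually_all.2 h] with P hP α hα
  have hus := decay_pow_le (k := k) (s := s) (by omega) hs
    (show 0 ≤ (P : ℝ) ^ k * |α| by positivity)
  rw [show ((P : ℝ) ^ k * |α|) ^ 2 = ((P : ℝ) ^ k * α) ^ 2 by
    rw [mul_pow, mul_pow, sq_abs]] at hus
  rw [prodSum, norm_prod]
  refine (prod_le_prod (fun i _ => norm_nonneg _) fun i _ => hP i α (abs_le.2 hα)).trans ?_
  rw [prod_mul_distrib, prod_const, card_univ, Fintype.card_fin, mul_pow]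
  have h4 := mul_le_mul_of_nonneg_left hus
    (show 0 ≤ (∏ i, E i) * (P : ℝ) ^ s from
      mul_nonneg (prod_nonneg fun i _ => (hE i).le) (by positivity))
  linarith

theorem integral_arc_le (hks : k ≤ s) {P : ℕ} (hP : 1 ≤ P) {δ : ℝ} {F : ℝ → ℝ} (hF : Continuous F)
    {u : ℝ} (hu : 0 ≤ u) (h : ∀ α ∈ Set.Icc (-δ) δ,
      F α ≤ (P : ℝ) ^ s * (u * (1 + ((P : ℝ) ^ k * α) ^ 2)⁻¹)) :
    ∫ α in Set.Icc (-δ) δ, F α ≤ (P : ℝ) ^ (s - k) * (u * π) := by
  obtain ⟨N, hN⟩ : ∃ N : ℝ, N = (P : ℝ) ^ k := ⟨_, rfl⟩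
  have hN0 : 0 < N := hN ▸ pow_pos (Nat.cast_pos.2 hP) k
  rw [← hN] at h
  have hint : Integrable fun α : ℝ => (P : ℝ) ^ s * u * (1 + (N * α) ^ 2)⁻¹ :=
    (integrable_inv_one_add_sq.comp_mul_left' hN0.ne').const_mul _
  refine (setIntegral_mono_on hF.integrableOn_Icc hint.integrableOn measurableSet_Icc
    fun α hα => (h α hα).trans (le_of_eq (mul_assoc _ _ _).symm)).trans
    ((setIntegral_le_integral hint (ae_of_all _ fun α => by positivity)).trans (le_of_eq ?_))
  rw [integral_const_mul, Measure.integral_comp_mul_left (fun x : ℝ => (1 + x ^ 2)⁻¹) N,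
    integral_univ_inv_one_add_sq, smul_eq_mul, abs_of_pos (inv_pos.2 hN0),
    show (P : ℝ) ^ s = (P : ℝ) ^ (s - k) * N by rw [hN, ← pow_add, Nat.sub_add_cancel hks]]
  field_simp

theorem exists_major_abs (hk : 2 ≤ k) (hs : 2 * k + 1 ≤ s) {l : Fin s → ℝ} (hl : ∀ i, l i ≠ 0) :
    ∃ C : ℝ, 0 < C ∧ ∀ᶠ P : ℕ in atTop,
      ∫ α in Set.Icc (-arcWidth k l P) (arcWidth k l P), ‖prodSum k P l α‖ ≤
        C * (P : ℝ) ^ (s - k) := by
  obtain ⟨E, hE, h⟩ := exists_prodSum_bound hk hs hl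
  refine ⟨E * π, by positivity, ?_⟩
  filter_upwards [h, eventually_ge_atTop 1] with P hP hP1
  refine (integral_arc_le (s := s) (k := k) (by omega) hP1 (continuous_prodSum k P l).norm hE.le
    fun α hα => (hP α hα).trans ?_).trans (le_of_eq (mul_comm _ _))
  have h1 : decay k ((P : ℝ) ^ k * |α|) ≤ 1 := Real.rpow_le_one_of_one_le_of_nonpos
    (le_add_of_nonneg_right (by positivity)) (neg_nonpos.2 (by positivity))
  have h2 := mul_le_mul_of_nonneg_left (mul_le_of_le_one_left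
    (show (0 : ℝ) ≤ (1 + ((P : ℝ) ^ k * α) ^ 2)⁻¹ by positivity) h1)
    (show 0 ≤ E * (P : ℝ) ^ s by positivity)
  linarith

theorem continuous_kernel_diff (k P : ℕ) (l : Fin s → ℝ) (η μ : ℝ) : Continuous fun α =>
    ‖(gaussK η α : ℂ) * eAdd (-(μ * α)) - 1‖ * ‖prodSum k P l α‖ :=
  (Continuous.norm (((Complex.continuous_ofReal.comp (by unfold gaussK; fun_prop)).mul
    (continuous_eAdd.comp (continuous_const.mul continuous_id).neg)).sub continuous_const)).mul
    (continuous_prodSum k P l).norm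

/-- **The count is `η J + o (P ^ (s - k))`.** -/
theorem eventually_count_near (hk : 2 ≤ k) (hs : 2 ^ k + 1 ≤ s) (hs2 : 2 * k + 1 ≤ s)
    {l : Fin s → ℝ} (hl : ∀ i, l i ≠ 0) (a b : Fin s) {η ε : ℝ} (hη : 0 < η) (μ : ℝ)
    (hε : 0 < ε) : ∀ᶠ P : ℕ in atTop, convergentDen (l a / l b) P →
      ‖((weightedCount k P l η μ / η : ℝ) : ℂ) - majorIntegral k P l‖ ≤
        ε * (P : ℝ) ^ (s - k) := by
  obtain ⟨C, hC, habs⟩ := exists_major_abs hk hs2 hl
  obtain ⟨K, hK⟩ : ∃ K, K = π * η ^ 2 + 2 * π * |μ| := ⟨_, rfl⟩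
  have hK0 : 0 ≤ K := hK ▸ by positivity
  filter_upwards [eventually_off_zero hk hs hl a b hη (half_pos hε), habs,
    (tendsto_arcWidth hk l).eventually (eventually_le_nhds one_pos),
    ((tendsto_arcWidth hk l).const_mul (K * C)).eventually
      (eventually_le_nhds (show K * C * 0 < ε / 2 by linarith))]
    with P hoff habs hδ1 hsmall hconv
  refine (DiophantineInequality.norm_count_sub_major_le k P l hη μ).trans ?_
  obtain ⟨δ, hδ⟩ : ∃ δ, δ = arcWidth k l P := ⟨_, rfl⟩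
  rw [← hδ] at hoff habs hδ1 hsmall ⊢
  have hδ0 : 0 ≤ δ := hδ ▸ DiophantineInequality.arcWidth_nonneg k l P
  have hmaj : ∫ α in Set.Icc (-δ) δ,
      ‖(gaussK η α : ℂ) * eAdd (-(μ * α)) - 1‖ * ‖prodSum k P l α‖ ≤
        K * δ * (C * (P : ℝ) ^ (s - k)) := by
    refine (setIntegral_mono_on (continuous_kernel_diff k P l η μ).integrableOn_Icc
      (((continuous_prodSum k P l).norm.const_mul (K * δ)).integrableOn_Icc)
      measurableSet_Icc fun α hα => ?_).trans ?_
    · refine mul_le_mul_of_nonneg_right ?_ (norm_nonneg _)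
      have hαδ : |α| ≤ δ := abs_le.2 hα
      rw [show (gaussK η α : ℂ) * eAdd (-(μ * α)) - 1 =
        ((gaussK η α - 1 : ℝ) : ℂ) * eAdd (-(μ * α)) + (eAdd (-(μ * α)) - 1) by push_cast; ring]
      refine (norm_add_le _ _).trans ?_
      rw [norm_mul, norm_eAdd, mul_one, Complex.norm_real, Real.norm_eq_abs, abs_sub_comm,
        abs_of_nonneg (sub_nonneg.2 (gaussK_le_one η α))]
      have h1 : 1 - gaussK η α ≤ π * η ^ 2 * α ^ 2 := by
        have := Real.add_one_le_exp (-(π * η ^ 2) * α ^ 2)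
        rw [gaussK]
        linarith
      have h2 := ThreePrimes.norm_eAdd_sub_one_le (-(μ * α))
      rw [abs_neg, abs_mul] at h2
      have h3 : α ^ 2 ≤ δ := by
        rw [← sq_abs]
        exact le_trans (by rw [sq]; exact mul_le_mul hαδ (hαδ.trans hδ1) (abs_nonneg _) hδ0)
          (le_of_eq (mul_one δ))
      have := mul_le_mul_of_nonneg_left h3 (show 0 ≤ π * η ^ 2 by positivity)
      have := mul_le_mul_of_nonneg_left hαδ (show 0 ≤ 2 * π * |μ| by positivity)
      rw [hK]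
      linarith
    · rw [integral_const_mul]
      exact mul_le_mul_of_nonneg_left habs (by positivity)
  have h1 := mul_le_mul_of_nonneg_right hsmall (show 0 ≤ (P : ℝ) ^ (s - k) by positivity)
  linarith [hoff hconv]

/-- **The major part is large.** -/
theorem exists_major_ge (hk : 2 ≤ k) (hs : 2 ^ k + 1 ≤ s) (hs2 : 2 * k + 1 ≤ s) {l : Fin s → ℝ}
    (hl : ∀ i, l i ≠ 0) {i j : Fin s} (hi : 0 < l i) (hj : l j < 0) (a b : Fin s) :
    ∃ g : ℝ, 0 < g ∧ ∀ᶠ P : ℕ in atTop, convergentDen (l a / l b) P →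
      g * (P : ℝ) ^ (s - k) ≤ (majorIntegral k P l).re := by
  obtain ⟨g₀, κ, hg₀, hκ, hcount⟩ := DiophantineInequality.exists_box_count hk hi hj
  obtain ⟨E, hE, hprod⟩ := exists_prodSum_bound hk hs2 hl
  obtain ⟨g, hg⟩ : ∃ g, g = g₀ * Real.exp (-π) := ⟨_, rfl⟩
  have hg0 : 0 < g := hg ▸ by positivity
  obtain ⟨A, hA⟩ : ∃ A, A = (8 * E * π / g) ^ k := ⟨_, rfl⟩
  have hA0 : 0 < A := hA ▸ by positivity
  have hAk : A ^ (-(1 / (k : ℝ))) * (8 * E * π / g) = 1 := by
    rw [hA, ← Real.rpow_natCast, ← Real.rpow_mul (by positivity), mul_neg,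
      mul_one_div_cancel (Nat.cast_ne_zero.2 (by omega)), Real.rpow_neg_one,
      inv_mul_cancel₀ (by positivity)]
  obtain ⟨h, hh0, hhκ, hhA⟩ : ∃ h : ℝ, 0 < h ∧ h ≤ κ ∧ π * h ^ 2 * A ^ 2 * E * π ≤ g / 8 := by
    have hlim : Tendsto (fun h : ℝ => π * h ^ 2 * A ^ 2 * E * π) (𝓝[>] 0) (𝓝 0) :=
      tendsto_nhdsWithin_of_tendsto_nhds (Continuous.tendsto' (by fun_prop) 0 0 (by simp))
    obtain ⟨h, ⟨h1, h2⟩, h3⟩ := ((eventually_nhdsWithin_of_forall
      fun h (hh : h ∈ Set.Ioi (0 : ℝ)) => hh).and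
        (eventually_nhdsWithin_of_eventually_nhds (eventually_le_nhds hκ))).and
      (hlim.eventually (eventually_le_nhds (show 0 < g / 8 by positivity))) |>.exists
    exact ⟨h, h1, h2, h3⟩
  refine ⟨g / 2, by positivity, ?_⟩
  filter_upwards [hcount h hh0 hhκ, hprod,
    eventually_off_zero hk hs hl a b one_pos (show 0 < g / 8 by positivity),
    (tendsto_natCast_atTop_atTop (R := ℝ)).eventually (eventually_ge_atTop (max 1 (1 / h))),
    eventually_ge_atTop 1] with P hPc hPd hoffP hPh hP1 hconv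
  rw [max_le_iff] at hPh
  have hP0 : (0 : ℝ) < P := Nat.cast_pos.2 hP1
  obtain ⟨N, hN⟩ : ∃ N : ℝ, N = (P : ℝ) ^ k := ⟨_, rfl⟩
  have hN0 : 0 < N := hN ▸ pow_pos hP0 k
  have hη : 1 ≤ h * N := by
    have h1 := le_self_pow₀ hPh.1 (show k ≠ 0 by omega)
    have h2 := (div_le_iff₀ hh0).1 hPh.2
    have h3 := mul_le_mul_of_nonneg_left (hN ▸ h1) hh0.le
    linarith
  have hNs : (P : ℝ) ^ (s - k) * N = (P : ℝ) ^ s := by
    rw [hN, ← pow_add, Nat.sub_add_cancel (by omega)]
  have hlow : g * (P : ℝ) ^ (s - k) ≤ weightedCount k P l (h * N) 0 / (h * N) := by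
    rw [le_div_iff₀ (by linarith), weightedCount]
    simp only [sub_zero]
    refine le_trans ?_ (sum_le_sum_of_subset_of_nonneg (filter_subset
      (fun x => |diagForm k l x| ≤ h * (P : ℝ) ^ k) (box s P)) fun i _ _ => (gaussW_pos _ _).le)
    refine le_trans ?_ (card_nsmul_le_sum _ _ (Real.exp (-π)) fun x hx => ?_)
    · rw [nsmul_eq_mul, hg]
      refine le_trans (le_of_eq ?_) (mul_le_mul_of_nonneg_right hPc (Real.exp_pos _).le)
      rw [← hNs]
      ring
    · rw [gaussW, Real.exp_le_exp, mul_div_assoc, neg_mul]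
      refine neg_le_neg (mul_le_of_le_one_right Real.pi_pos.le ?_)
      rw [div_le_one (by positivity)]
      exact sq_le_sq.2 (by rw [abs_of_pos (show 0 < h * N by positivity), hN]
                           exact (mem_filter.1 hx).2)
  obtain ⟨u, hu⟩ : ∃ u, u = π * h ^ 2 * A ^ 2 * E + E * A ^ (-(1 / (k : ℝ))) := ⟨_, rfl⟩
  have hu0 : 0 ≤ u := hu ▸ by positivity
  have hmaj := integral_arc_le (k := k) (s := s) (δ := arcWidth k l P) (by omega) hP1
    (continuous_kernel_diff k P l (h * N) 0) (u := u) hu0 fun α hα => by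
    rw [zero_mul, neg_zero, eAdd_zero, mul_one, ← Complex.ofReal_one, ← Complex.ofReal_sub,
      Complex.norm_real, Real.norm_eq_abs, abs_sub_comm,
      abs_of_nonneg (sub_nonneg.2 (gaussK_le_one _ α))]
    have h0 : 0 ≤ 1 - gaussK (h * N) α := sub_nonneg.2 (gaussK_le_one _ α)
    refine (mul_le_mul_of_nonneg_left (hPd α hα) h0).trans ?_
    have h1 : 1 - gaussK (h * N) α ≤ 1 := sub_le_self _ (gaussK_pos _ _).le
    obtain ⟨y, hy⟩ : ∃ y, y = N * |α| := ⟨_, rfl⟩
    have hy0 : 0 ≤ y := hy ▸ by positivity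
    rw [← hN, ← hy, show (N * α) ^ 2 = y ^ 2 by rw [hy, mul_pow, mul_pow, sq_abs]]
    obtain ⟨Z, hZ⟩ : ∃ Z, Z = (1 + y ^ 2)⁻¹ := ⟨_, rfl⟩
    have hZ0 : 0 ≤ Z := hZ ▸ by positivity
    have hd0 := decay_nonneg k hy0
    have hd1 : decay k y ≤ 1 := Real.rpow_le_one_of_one_le_of_nonpos
      (le_add_of_nonneg_right hy0) (neg_nonpos.2 (by positivity))
    rw [← hZ]
    have hkey : (1 - gaussK (h * N) α) * decay k y * E ≤ u := by
      rw [hu]
      rcases le_or_gt y A with hyA | hyA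
      · have h2 : 1 - gaussK (h * N) α ≤ π * h ^ 2 * A ^ 2 := by
          have h3 := Real.add_one_le_exp (-(π * (h * N) ^ 2) * α ^ 2)
          have h4 := mul_le_mul_of_nonneg_left (pow_le_pow_left₀ hy0 hyA 2)
            (show 0 ≤ π * h ^ 2 by positivity)
          rw [hy, mul_pow, sq_abs] at h4
          rw [gaussK]
          linarith
        refine (mul_le_mul_of_nonneg_right (mul_le_mul h2 hd1 hd0 (by positivity)) hE.le).trans ?_
        rw [mul_one]
        exact le_add_of_nonneg_right (by positivity)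
      · have h2 : decay k y ≤ A ^ (-(1 / (k : ℝ))) := Real.rpow_le_rpow_of_nonpos hA0
          (by linarith) (neg_nonpos.2 (by positivity))
        refine (mul_le_mul_of_nonneg_right (mul_le_mul h1 h2 hd0 zero_le_one) hE.le).trans ?_
        rw [one_mul, mul_comm]
        exact le_add_of_nonneg_left (by positivity)
    calc (1 - gaussK (h * N) α) * (E * (P : ℝ) ^ s * (decay k y * Z))
        = (P : ℝ) ^ s * ((1 - gaussK (h * N) α) * decay k y * E * Z) := by ring
      _ ≤ _ := mul_le_mul_of_nonneg_left (mul_le_mul_of_nonneg_right hkey hZ0) (by positivity)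
  have hoff' : ∫ α in (Set.Icc (-arcWidth k l P) (arcWidth k l P))ᶜ,
      gaussK (h * N) α * ‖prodSum k P l α‖ ≤ g / 8 * (P : ℝ) ^ (s - k) := by
    refine le_trans (setIntegral_mono ?_ ?_ fun α => ?_) (hoffP hconv)
    · exact (integrable_kernel_mul_real (by linarith) (continuous_prodSum k P l).norm
        fun α => by rw [norm_norm]; exact norm_prodSum_le k P l α).integrableOn
    · exact (integrable_kernel_mul_real one_pos (continuous_prodSum k P l).norm
        fun α => by rw [norm_norm]; exact norm_prodSum_le k P l α).integrableOn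
    · refine mul_le_mul_of_nonneg_right (Real.exp_le_exp.2 ?_) (norm_nonneg _)
      have h1 : (1 : ℝ) ^ 2 ≤ (h * N) ^ 2 := pow_le_pow_left₀ zero_le_one hη 2
      have h2 := mul_le_mul_of_nonneg_left h1 (show 0 ≤ π * α ^ 2 by positivity)
      linarith
  have huπ : u * π ≤ g / 4 := by
    rw [hu, add_mul]
    have e : E * A ^ (-(1 / (k : ℝ))) * π = g / 8 := by
      rw [mul_div_assoc', div_eq_iff hg0.ne'] at hAk
      linarith
    linarith
  have h1 := (abs_le.1 ((Complex.abs_re_le_norm _).trans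
    ((DiophantineInequality.norm_count_sub_major_le k P l (show 0 < h * N by linarith) 0).trans
      (add_le_add hmaj hoff')))).2
  rw [Complex.sub_re, Complex.ofReal_re] at h1
  have h2 := mul_le_mul_of_nonneg_left huπ (show 0 ≤ (P : ℝ) ^ (s - k) by positivity)
  have h3 : 0 ≤ g * (P : ℝ) ^ (s - k) := by positivity
  linarith

/-- **The count.** -/
theorem exists_frequently (hk : 2 ≤ k) (hs : 2 ^ k + 1 ≤ s) {l : Fin s → ℝ} (hl : ∀ i, l i ≠ 0)
    (hirr : ∃ i j, Irrational (l i / l j)) (hsign : ∃ i j, 0 < l i ∧ l j < 0) (μ : ℝ) {η : ℝ}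
    (hη : 0 < η) : ∃ g : ℝ, 0 < g ∧ ∃ᶠ P : ℕ in atTop, g * (P : ℝ) ^ (s - k) ≤
      (((box s P).filter fun x => |diagForm k l x - μ| < η).card : ℝ) := by
  have hs2 : 2 * k + 1 ≤ s := by
    have : 2 * k ≤ 2 ^ k := by
      obtain ⟨i, rfl⟩ : ∃ i, k = i + 1 := ⟨k - 1, by omega⟩
      rw [pow_succ']
      exact Nat.mul_le_mul_left 2 Nat.lt_two_pow_self
    omega
  obtain ⟨a', b', hab⟩ := hirr
  obtain ⟨a, b, ha, hb⟩ := hsign
  obtain ⟨c₀, hc₀, hmaj⟩ := exists_major_ge hk hs hs2 hl ha hb a' b'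
  obtain ⟨C₁, hC₁, habs⟩ := exists_major_abs hk hs2 hl
  obtain ⟨C, hC⟩ : ∃ C, C = C₁ + 1 := ⟨_, rfl⟩
  have hC0 : 0 < C := by linarith
  obtain ⟨w, hw0, hw1, hw⟩ : ∃ w : ℝ, 0 < w ∧ w ^ 2 ≤ 1 / 2 ∧
      Real.exp (-π * (η ^ 2 / (2 * w ^ 2))) * C ≤ c₀ * w / 4 := by
    obtain ⟨w, hw0, hw1, hwc⟩ : ∃ w : ℝ, 0 < w ∧ w ≤ 1 / 2 ∧ w ≤ π * η ^ 2 * c₀ / (8 * C) :=
      ⟨min (1 / 2) (π * η ^ 2 * c₀ / (8 * C)), lt_min (by norm_num) (by positivity),
        min_le_left _ _, min_le_right _ _⟩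
    refine ⟨w, hw0, (pow_le_pow_left₀ hw0.le hw1 2).trans (by norm_num), ?_⟩
    rw [neg_mul, Real.exp_neg, inv_mul_eq_div, div_le_iff₀ (Real.exp_pos _)]
    have h1 := mul_le_mul_of_nonneg_left (Real.add_one_le_exp (π * (η ^ 2 / (2 * w ^ 2))))
      (show 0 ≤ c₀ * w / 4 by positivity)
    have h2 : C ≤ c₀ * w / 4 * (π * (η ^ 2 / (2 * w ^ 2))) := by
      rw [show c₀ * w / 4 * (π * (η ^ 2 / (2 * w ^ 2))) = π * η ^ 2 * c₀ / 8 / w by
        field_simp; ring, le_div_iff₀ hw0]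
      rw [le_div_iff₀ (by positivity)] at hwc
      linarith
    have h3 : 0 ≤ c₀ * w / 4 := by positivity
    linarith
  suffices key : ∀ᶠ P : ℕ in atTop, convergentDen (l a' / l b') P →
      c₀ * w / 4 * (P : ℝ) ^ (s - k) ≤
        (((box s P).filter fun x => |diagForm k l x - μ| < η).card : ℝ) from
    ⟨c₀ * w / 4, by positivity,
      ((PrimePowerInequality.frequently_convergentDen hab).and_eventually key).mono
        fun P hP => hP.2 hP.1⟩
  filter_upwards [hmaj, eventually_count_near hk hs hs2 hl a' b' hw0 μ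
      (show 0 < c₀ / 2 by positivity), habs, eventually_off_zero hk hs hl a' b' one_pos one_pos]
    with P hP hnear habs hoffP hconv
  obtain ⟨Y, hY⟩ : ∃ Y : ℝ, Y = (P : ℝ) ^ (s - k) := ⟨_, rfl⟩
  rw [← hY] at hP hnear habs hoffP ⊢
  have h1 := (abs_le.1 ((Complex.abs_re_le_norm _).trans (hnear hconv))).1
  rw [Complex.sub_re, Complex.ofReal_re] at h1
  have h2 : c₀ / 2 * Y * w ≤ weightedCount k P l w μ := by
    rw [← le_div_iff₀ hw0]
    linarith [hP hconv]
  have h3 : weightedCount k P l 1 μ ≤ C * Y := by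
    have h := DiophantineInequality.weightedCount_div_eq k P l one_pos μ
    rw [div_one] at h
    have hint : Integrable fun α => gaussK 1 α * ‖prodSum k P l α‖ :=
      integrable_kernel_mul_real one_pos (continuous_prodSum k P l).norm fun α => by
        rw [norm_norm]; exact norm_prodSum_le k P l α
    have h' := congrArg norm h
    rw [Complex.norm_real, Real.norm_eq_abs] at h'
    refine (le_abs_self _).trans (h'.le.trans ((norm_integral_le_integral_norm _).trans
      (le_of_eq_of_le (integral_congr_ae (ae_of_all _ fun α => ?_))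
        (le_of_eq_of_le (integral_add_compl (s := Set.Icc (-arcWidth k l P) (arcWidth k l P))
          measurableSet_Icc hint).symm ?_))))
    · dsimp only
      rw [norm_mul, norm_mul, norm_eAdd, mul_one, Complex.norm_real, Real.norm_eq_abs,
        abs_of_pos (gaussK_pos 1 α)]
    · have h4 : ∫ α in Set.Icc (-arcWidth k l P) (arcWidth k l P),
          gaussK 1 α * ‖prodSum k P l α‖ ≤ C₁ * Y :=
        (setIntegral_mono_on hint.integrableOn
          (continuous_prodSum k P l).norm.integrableOn_Icc measurableSet_Icc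
          fun α _ => mul_le_of_le_one_left (norm_nonneg _) (gaussK_le_one 1 α)).trans habs
      rw [hC]
      linarith [hoffP hconv]
  rw [weightedCount, ← sum_filter_add_sum_filter_not (box s P)
    (fun x => |diagForm k l x - μ| < η)] at h2
  have h4 : ∑ x ∈ (box s P).filter (fun x => |diagForm k l x - μ| < η),
      gaussW w (diagForm k l x - μ) ≤
        (((box s P).filter fun x => |diagForm k l x - μ| < η).card : ℝ) := by
    refine (sum_le_card_nsmul _ _ 1 fun x _ => Real.exp_le_one_iff.2 ?_).trans (le_of_eq (by simp))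
    exact div_nonpos_of_nonpos_of_nonneg
      (mul_nonpos_of_nonpos_of_nonneg (neg_nonpos.2 Real.pi_pos.le) (sq_nonneg _)) (sq_nonneg _)
  have h5 : ∑ x ∈ (box s P).filter (fun x => ¬|diagForm k l x - μ| < η),
      gaussW w (diagForm k l x - μ) ≤
        Real.exp (-π * (η ^ 2 / (2 * w ^ 2))) * weightedCount k P l 1 μ := by
    rw [weightedCount, mul_sum]
    refine (sum_le_sum (g := fun x => Real.exp (-π * (η ^ 2 / (2 * w ^ 2))) *
      gaussW 1 (diagForm k l x - μ)) fun x hx => ?_).trans (sum_le_sum_of_subset_of_nonneg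
        (filter_subset _ _) fun x _ _ => mul_nonneg (Real.exp_pos _).le (gaussW_pos _ _).le)
    obtain ⟨u, hu⟩ : ∃ u, u = diagForm k l x - μ := ⟨_, rfl⟩
    have hx' := (mem_filter.1 hx).2
    rw [← hu, not_lt] at hx'
    rw [← hu, gaussW, gaussW, ← Real.exp_add, Real.exp_le_exp, one_pow, div_one]
    have hη2 : η ^ 2 ≤ u ^ 2 := sq_le_sq.2 (by rwa [abs_of_pos hη])
    have hA : η ^ 2 / (2 * w ^ 2) ≤ u ^ 2 / (2 * w ^ 2) :=
      div_le_div_of_nonneg_right hη2 (by positivity)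
    have hB : u ^ 2 ≤ u ^ 2 / (2 * w ^ 2) := by
      rw [le_div_iff₀ (by positivity)]
      exact mul_le_of_le_one_right (sq_nonneg u) (by linarith)
    have e : -π * u ^ 2 / w ^ 2 = -π * (u ^ 2 / (2 * w ^ 2)) + -π * (u ^ 2 / (2 * w ^ 2)) := by
      field_simp
      ring
    rw [e]
    have := mul_le_mul_of_nonneg_left hA Real.pi_pos.le
    have := mul_le_mul_of_nonneg_left hB Real.pi_pos.le
    linarith
  have h6 := mul_le_mul_of_nonneg_left h3 (Real.exp_pos (-π * (η ^ 2 / (2 * w ^ 2)))).le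
  have h7 := mul_le_mul_of_nonneg_right hw (show 0 ≤ Y by rw [hY]; positivity)
  linarith

end FA.HuaInequality

end
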