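import Fermat.Agent.HuaInequality.Count
import Fermat.Agent.DiophantineInequality.Main
import Fermat.Agent.PrimePowerInequality.Minor
import Fermat.Agent.LinearFormsPrimes.Minor

/-!
# The rest of the line with `2 ^ k + 1` variables

For `P` the denominator of an approximation of `a / b` and `|α| ≤ P ^ (1/20)` off the arc at `0`,
`f (a α)` or `f (b α)` is at most `P ^ (1 - δ)`, by Weyl's inequality; the remaining `2 ^ k` sums
cost `P ^ (2 ^ k - k + ε)` by Hua's inequality, and the Gaussian deals with the larger `α`.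
-/

set_option autoImplicit false

noncomputable section

namespace FA.HuaInequality

open Finset Filter Topology MeasureTheory
open FA.ThreePrimes (eAdd eAdd_add conj_eAdd norm_eAdd nearDist centre arcCentres mem_arcCentres)
open FA.WaringAsymptotic (waringSum norm_waringSum_le powerDiagonal weylSaving weylSaving_pos)
open FA.DiophantineInequality (gaussK gaussK_pos gaussW gaussW_pos integrable_kernel_mul_real
  prodSum continuous_prodSum norm_prodSum_le prod_le_sum_pow arcWidth)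
open FA.PrimePowerInequality (convergentDen)
open scoped Real

variable {k s : ℕ}

/-- The saving on the rest of the line. -/
def minorSaving (k : ℕ) : ℝ := min (weylSaving k / 2) (1 / (20 * k))

theorem minorSaving_pos (hk : 1 ≤ k) : 0 < minorSaving k :=
  lt_min (half_pos (weylSaving_pos k)) (by
    have : (0 : ℝ) < k := Nat.cast_pos.2 hk
    positivity)

theorem tendsto_natCast_rpow {e : ℝ} (he : 0 < e) :
    Tendsto (fun P : ℕ => (P : ℝ) ^ e) atTop atTop :=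
  (tendsto_rpow_atTop he).comp tendsto_natCast_atTop_atTop

theorem exists_rational_of_large (hk : 2 ≤ k) : ∀ᶠ P : ℕ in atTop, ∀ x : ℝ,
    (P : ℝ) ^ (1 - minorSaving k) < ‖waringSum k P x‖ → ∃ (q : ℕ) (A : ℤ), 0 < q ∧
      (q : ℝ) ≤ (P : ℝ) ^ (1 / 10 : ℝ) ∧
      |x - A / q| ≤ (P : ℝ) ^ (1 / 10 : ℝ) / (P : ℝ) ^ k := by
  obtain ⟨C, hC, hsup⟩ := WaringAsymptotic.exists_minor_sup hk
  filter_upwards [(tendsto_natCast_rpow (half_pos (weylSaving_pos k))).eventually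
    (eventually_ge_atTop C), eventually_ge_atTop 1] with P hCP hP x hx
  have hP1 : (1 : ℝ) ≤ P := by exact_mod_cast hP
  have hP0 : (0 : ℝ) < P := by linarith
  obtain ⟨R, hR⟩ : ∃ R, R = (P : ℝ) ^ (1 / 10 : ℝ) := ⟨_, rfl⟩
  have hR0 : 0 ≤ R := hR ▸ by positivity
  rw [← hR]
  obtain ⟨z, hz, hnear⟩ : ∃ z ∈ arcCentres ⌊R⌋₊, nearDist (x - centre z) ≤ R / (P : ℝ) ^ k := by
    by_contra hno
    push Not at hno
    have h := hsup (P ^ k) P x hP le_rfl (Nat.pow_lt_pow_left P.lt_succ_self (by omega))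
      fun z hz => by
        push_cast
        rw [← hR]
        exact hno z (hR ▸ hz)
    have h1 : C * (P : ℝ) ^ (1 - weylSaving k) ≤
        (P : ℝ) ^ (weylSaving k / 2) * (P : ℝ) ^ (1 - weylSaving k) :=
      mul_le_mul_of_nonneg_right hCP (by positivity)
    rw [← Real.rpow_add hP0] at h1
    have h2 : (P : ℝ) ^ (weylSaving k / 2 + (1 - weylSaving k)) ≤
        (P : ℝ) ^ (1 - minorSaving k) := by
      refine Real.rpow_le_rpow_of_exponent_le hP1 ?_
      have : minorSaving k ≤ weylSaving k / 2 := min_le_left _ _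
      linarith
    linarith
  obtain ⟨q, r⟩ := z
  obtain ⟨⟨hq1, hqR⟩, -, -⟩ := mem_arcCentres.1 hz
  simp only at hq1 hqR
  rw [nearDist] at hnear
  refine ⟨q, (r : ℤ) + round (x - centre ⟨q, r⟩) * q, hq1,
    (Nat.cast_le.2 hqR).trans (Nat.floor_le hR0), ?_⟩
  refine le_of_eq_of_le ?_ hnear
  simp only [centre]
  have hq0 : (q : ℝ) ≠ 0 := Nat.cast_ne_zero.2 (by omega)
  congr 1
  push_cast
  field_simp
  ring

/-- The sum is small at the edge of the arc at `0`. -/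
theorem eventually_edge_small (hk : 2 ≤ k) {b L : ℝ} (hb : b ≠ 0) (hL : 0 < L) :
    ∀ᶠ P : ℕ in atTop, ∀ α : ℝ, (P : ℝ) ^ (1 / 10 : ℝ) / (P : ℝ) ^ k / L < |α| →
      |b * α| ≤ (P : ℝ) ^ (1 / 10 : ℝ) / (P : ℝ) ^ k →
        ‖waringSum k P (b * α)‖ ≤ (P : ℝ) ^ (1 - minorSaving k) := by
  obtain ⟨C, hC, hdecay⟩ := DiophantineInequality.exists_decay hk
  have hk0 : (0 : ℝ) < k := Nat.cast_pos.2 (by omega)
  have hb0 : 0 < |b| := abs_pos.2 hb
  obtain ⟨K, hK⟩ : ∃ K : ℝ, K = C * (|b| / L) ^ (-(1 / (k : ℝ))) := ⟨_, rfl⟩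
  filter_upwards [hdecay,
    (tendsto_natCast_rpow (show (0 : ℝ) < 1 / 10 by norm_num)).eventually
      (eventually_ge_atTop (L / |b|)),
    (tendsto_natCast_rpow (show (0 : ℝ) < 1 / (20 * k) by positivity)).eventually
      (eventually_ge_atTop K),
    eventually_ge_atTop 1] with P hP hLP hKP hP1 α hα hbα
  have hP1r : (1 : ℝ) ≤ P := by exact_mod_cast hP1
  have hP0 : (0 : ℝ) < P := by linarith
  have hPk : (0 : ℝ) < (P : ℝ) ^ k := pow_pos hP0 k
  obtain ⟨R, hR⟩ : ∃ R, R = (P : ℝ) ^ (1 / 10 : ℝ) := ⟨_, rfl⟩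
  rw [← hR] at hLP hα
  have hlow : |b| / L * R ≤ |b * α| * (P : ℝ) ^ k := by
    rw [div_div, div_lt_iff₀ (by positivity)] at hα
    rw [abs_mul, mul_assoc, div_mul_eq_mul_div, div_le_iff₀ hL, mul_assoc]
    refine mul_le_mul_of_nonneg_left ?_ hb0.le
    linarith
  have h1 : 1 ≤ |b| / L * R := by
    rw [div_le_iff₀ hb0] at hLP
    rw [div_mul_eq_mul_div, le_div_iff₀ hL]
    linarith
  refine (hP _ hbα (h1.trans hlow)).trans ?_
  refine (mul_le_mul_of_nonneg_left (Real.rpow_le_rpow_of_nonpos (zero_lt_one.trans_le h1) hlow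
    (neg_nonpos.2 (by positivity))) (by positivity)).trans ?_
  rw [Real.mul_rpow (by positivity) (hR ▸ by positivity), hR, ← Real.rpow_mul hP0.le,
    show C * P * ((|b| / L) ^ (-(1 / (k : ℝ))) * (P : ℝ) ^ (1 / 10 * -(1 / (k : ℝ)))) =
      K * (P * (P : ℝ) ^ (1 / 10 * -(1 / (k : ℝ)))) by rw [hK]; ring,
    mul_comm (P : ℝ), ← Real.rpow_add_one hP0.ne']
  refine (mul_le_mul_of_nonneg_right hKP (by positivity)).trans ?_
  rw [← Real.rpow_add hP0]
  refine Real.rpow_le_rpow_of_exponent_le hP1r ?_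
  have h2 : minorSaving k ≤ 1 / (20 * k) := min_le_right _ _
  have e : 1 / (20 * (k : ℝ)) + (1 / 10 * -(1 / (k : ℝ)) + 1) = 1 - 1 / (20 * k) := by
    field_simp
    ring
  linarith

/-- **The two sums are not both large.** -/
theorem not_both_large (hk : 2 ≤ k) {a b L : ℝ} (hb : b ≠ 0) (hL : 0 < L) :
    ∀ᶠ P : ℕ in atTop, convergentDen (a / b) P → ∀ α : ℝ,
      (P : ℝ) ^ (1 / 10 : ℝ) / (P : ℝ) ^ k / L < |α| → |α| ≤ (P : ℝ) ^ (1 / 20 : ℝ) →
        ‖waringSum k P (a * α)‖ ≤ (P : ℝ) ^ (1 - minorSaving k) ∨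
          ‖waringSum k P (b * α)‖ ≤ (P : ℝ) ^ (1 - minorSaving k) := by
  obtain ⟨C, hC⟩ : ∃ C, C = |a / b| + 1 + (|b| + 1) := ⟨_, rfl⟩
  have hC0 : 0 < C := hC ▸ by positivity
  filter_upwards [exists_rational_of_large hk, eventually_edge_small hk hb hL,
    (tendsto_natCast_rpow (show (0 : ℝ) < 11 / 20 by norm_num)).eventually
      (eventually_ge_atTop (2 * C)),
    eventually_ge_atTop 1] with P hrat hedge hbig hP1 hconv α hα1 hα2
  obtain ⟨A, -, hA, hPA⟩ := hconv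
  have hP1r : (1 : ℝ) ≤ P := by exact_mod_cast hP1
  have hP0 : (0 : ℝ) < P := by linarith
  obtain ⟨R, hR⟩ : ∃ R, R = (P : ℝ) ^ (1 / 10 : ℝ) := ⟨_, rfl⟩
  obtain ⟨T, hT⟩ : ∃ T, T = (P : ℝ) ^ (1 / 20 : ℝ) := ⟨_, rfl⟩
  have hR1 : 1 ≤ R := hR ▸ Real.one_le_rpow hP1r (by norm_num)
  have hT1 : 1 ≤ T := hT ▸ Real.one_le_rpow hP1r (by norm_num)
  obtain ⟨X, hX⟩ : ∃ X, X = R * R := ⟨_, rfl⟩
  have hX1 : 1 ≤ X := hX ▸ one_le_mul_of_one_le_of_one_le hR1 hR1
  have hX0 : 0 < X := by linarith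
  have hRX : R ≤ X := hX ▸ le_mul_of_one_le_left (by linarith) hR1
  have hXXT : X * X * T = (P : ℝ) ^ (9 / 20 : ℝ) := by
    rw [hX, hR, hT, ← Real.rpow_add hP0, ← Real.rpow_add hP0, ← Real.rpow_add hP0]
    norm_num
  have hsmall : 2 * C * (X * X * T) ≤ P := by
    rw [hXXT]
    refine (mul_le_mul_of_nonneg_right hbig (by positivity)).trans (le_of_eq ?_)
    rw [← Real.rpow_add hP0]
    norm_num
  have hXP : X ≤ P := by
    have h1 : X ≤ X * X * T := by
      rw [mul_assoc]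
      exact le_mul_of_one_le_right hX0.le (one_le_mul_of_one_le_of_one_le hX1 hT1)
    have h2 : (1 : ℝ) ≤ 2 * C := by
      have : 1 ≤ C := by rw [hC]; linarith [abs_nonneg (a / b), abs_nonneg b]
      linarith
    have h3 : X * X * T ≤ 2 * C * (X * X * T) := le_mul_of_one_le_left (by positivity) h2
    linarith
  obtain ⟨N, hN⟩ : ∃ N : ℝ, N = (P : ℝ) ^ k := ⟨_, rfl⟩
  have hPN : (P : ℝ) ^ 2 ≤ N := hN ▸ pow_le_pow_right₀ hP1r hk
  have hN0 : 0 < N := hN ▸ pow_pos hP0 k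
  by_contra hboth
  simp only [not_or, not_le] at hboth
  obtain ⟨q₁, A₁, hq₁, hq₁R, h₁'⟩ := hrat (a * α) hboth.1
  obtain ⟨q₂, A₂, hq₂, hq₂R, h₂'⟩ := hrat (b * α) hboth.2
  rw [← hR] at hq₁R h₁' hq₂R h₂' hα1
  rw [← hN] at h₁' h₂' hα1
  rw [← hT] at hα2
  have hnear : ∀ (x : ℝ) (q : ℕ) (A : ℤ), 0 < q → (q : ℝ) ≤ R → |x - A / q| ≤ R / N →
      |q * x - A| ≤ X / N := fun x q A hq hqR hx => by
    have hq0 : (q : ℝ) ≠ 0 := Nat.cast_ne_zero.2 hq.ne'
    rw [show (q : ℝ) * x - A = q * (x - A / q) by field_simp, abs_mul, Nat.abs_cast, hX,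
      mul_div_assoc]
    exact mul_le_mul hqR hx (abs_nonneg _) (by linarith)
  have h₁ := hnear _ q₁ A₁ hq₁ hq₁R h₁'
  have h₂ := hnear _ q₂ A₂ hq₂ hq₂R h₂'
  have hq₁X : (q₁ : ℝ) ≤ X := hq₁R.trans hRX
  have hq₂X : (q₂ : ℝ) ≤ X := hq₂R.trans hRX
  have hb0 : 0 < |b| := abs_pos.2 hb
  have hA₂ : A₂ ≠ 0 := by
    intro h0
    rw [h0, Int.cast_zero, zero_div, sub_zero] at h₂'
    have := hedge α (by rw [← hR, ← hN]; exact hα1) (by rw [← hR, ← hN]; exact h₂')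
    linarith [hboth.2]
  obtain ⟨n, hn⟩ : ∃ n : ℤ, n = A₂ * (q₁ : ℤ) := ⟨_, rfl⟩
  have hn0 : n ≠ 0 := hn ▸ mul_ne_zero hA₂ (by exact_mod_cast hq₁.ne')
  have hna : |(n : ℝ)| ≤ (|b| + 1) * (X * X * T) := by
    have h3 : |(A₂ : ℝ)| ≤ X * (|b| * T) + 1 := by
      have h4 := abs_sub_abs_le_abs_sub (A₂ : ℝ) (q₂ * (b * α))
      rw [abs_sub_comm, abs_mul, abs_mul, Nat.abs_cast] at h4
      have h5 : (q₂ : ℝ) * (|b| * |α|) ≤ X * (|b| * T) :=
        mul_le_mul hq₂X (mul_le_mul_of_nonneg_left hα2 hb0.le) (by positivity) hX0.le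
      have h6 : X / N ≤ 1 := (div_le_one hN0).2
        ((hXP.trans (le_self_pow₀ hP1r two_ne_zero)).trans hPN)
      linarith [le_abs_self (|(A₂ : ℝ)| - q₂ * (|b| * |α|))]
    rw [hn]
    push_cast
    rw [abs_mul, Nat.abs_cast]
    calc |(A₂ : ℝ)| * q₁ ≤ (X * (|b| * T) + 1) * X :=
          mul_le_mul h3 hq₁X (Nat.cast_nonneg _) (by positivity)
      _ ≤ (X * (|b| * T) + X * T) * X := by gcongr; exact one_le_mul_of_one_le_of_one_le hX1 hT1
      _ = _ := by ring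
  have hdist : |(n : ℝ) * (a / b) - ((A₁ * q₂ : ℤ) : ℝ)| ≤
      (|a / b| + 1) * (X * X / (P : ℝ) ^ 2) := by
    rw [hn]
    push_cast
    rw [show (A₂ : ℝ) * q₁ * (a / b) - A₁ * q₂ =
      -(a / b * q₁ * (q₂ * (b * α) - A₂)) + q₂ * (q₁ * (a * α) - A₁) by field_simp; ring]
    refine (abs_add_le _ _).trans ?_
    rw [abs_neg, abs_mul, abs_mul, abs_mul, Nat.abs_cast, Nat.abs_cast]
    refine ((add_le_add (mul_le_mul (mul_le_mul_of_nonneg_left hq₁X (abs_nonneg (a / b))) h₂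
      (abs_nonneg _) (by positivity)) (mul_le_mul hq₂X h₁ (abs_nonneg _) hX0.le)).trans
      (le_of_eq (show _ = (|a / b| + 1) * (X * X / N) by ring))).trans ?_
    exact mul_le_mul_of_nonneg_left (div_le_div_of_nonneg_left (by positivity) (by positivity) hPN)
      (by positivity)
  have hXX : 0 < X * X * T := by positivity
  have hb1 : (|b| + 1) * (X * X * T) < P := by
    have : 0 < (|a / b| + 1) * (X * X * T) := by positivity
    rw [hC] at hsmall
    linarith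
  have hnq : |n| < (P : ℤ) := by
    rw [← Int.cast_lt (R := ℝ), Int.cast_abs, Int.cast_natCast]
    linarith
  have hone := LinearFormsPrimes.one_le_abs_mul_sub (j := A₁ * q₂) hA hn0 hnq
  have hup : |(n : ℝ) * A - ((A₁ * q₂ : ℤ) : ℝ) * P| ≤
      P * ((|a / b| + 1) * (X * X / (P : ℝ) ^ 2)) + P * (|(n : ℝ)| * (1 / (P : ℝ) ^ 2)) := by
    rw [show (n : ℝ) * A - ((A₁ * q₂ : ℤ) : ℝ) * P = P * ((n : ℝ) * (a / b) -
      ((A₁ * q₂ : ℤ) : ℝ)) + -(P * (n * (a / b - A / P))) by field_simp; ring]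
    refine (abs_add_le _ _).trans ?_
    rw [abs_neg, abs_mul, abs_mul, abs_mul, Nat.abs_cast]
    gcongr
  have h3 := hone.trans hup
  rw [show (P : ℝ) * ((|a / b| + 1) * (X * X / (P : ℝ) ^ 2)) +
    P * (|(n : ℝ)| * (1 / (P : ℝ) ^ 2)) = ((|a / b| + 1) * (X * X) + |(n : ℝ)|) / P by
    field_simp, one_le_div hP0] at h3
  have h4 : (|a / b| + 1) * (X * X) ≤ (|a / b| + 1) * (X * X * T) :=
    mul_le_mul_of_nonneg_left (le_mul_of_one_le_right (by positivity) hT1) (by positivity)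
  rw [hC] at hsmall
  linarith

/-- **The moment on the line**, from any bound for the diagonal. -/
theorem exists_moment_hua {t : ℕ} (hdiag : ∃ C₀ : ℝ, 0 < C₀ ∧ ∀ P : ℕ, 1 ≤ P →
      (powerDiagonal k t P : ℝ) ≤ C₀ * (P : ℝ) ^ (2 * t - k) * (P : ℝ) ^ (minorSaving k / 2))
    {η c : ℝ} (hη : 0 < η) (hc : c ≠ 0) : ∃ C : ℝ, 0 < C ∧ ∀ P : ℕ, 1 ≤ P →
      ∫ α : ℝ, gaussK η α * ‖waringSum k P (c * α)‖ ^ (2 * t) ≤
        C * ((P : ℝ) ^ (2 * t - k) * (P : ℝ) ^ (minorSaving k / 2)) := by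
  obtain ⟨C₀, hC₀, hdiag⟩ := hdiag
  obtain ⟨G, hG, hGS⟩ := DiophantineInequality.exists_sum_gaussW_int_le hη hc
  refine ⟨G * C₀ / η, by positivity, fun P hP => ?_⟩
  have e : ∀ α : ℝ, (((gaussK η α * ‖waringSum k P (c * α)‖ ^ (2 * t) : ℝ)) : ℂ) =
      ∑ z ∈ pairBox t P, (gaussK η α : ℂ) * eAdd (c * (powDiff k z : ℝ) * α) := fun α => by
    rw [Complex.ofReal_mul, norm_waringSum_pow_eq, mul_sum]
    refine sum_congr rfl fun z _ => ?_
    ring_nf
  have key : ∫ α : ℝ, gaussK η α * ‖waringSum k P (c * α)‖ ^ (2 * t) =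
      (∑ z ∈ pairBox t P, gaussW η (c * (powDiff k z : ℝ))) / η := by
    apply Complex.ofReal_injective
    rw [← integral_complex_ofReal, integral_congr_ae (ae_of_all _ e),
      integral_finsetSum _ fun x _ => DiophantineInequality.integrable_kernel_eAdd hη _]
    simp only [DiophantineInequality.integral_gaussK_mul_eAdd hη]
    rw [sum_div, Complex.ofReal_sum]
  rw [key, div_mul_eq_mul_div]
  refine div_le_div_of_nonneg_right ?_ hη.le
  rw [← sum_fiberwise_of_maps_to (g := powDiff k)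
    (t := (pairBox t P).image (powDiff k)) fun z hz => mem_image_of_mem _ hz]
  refine (sum_le_sum (g := fun n : ℤ => (powerDiagonal k t P : ℝ) * gaussW η (c * n))
    fun n _ => ?_).trans ?_
  · rw [sum_congr rfl fun z hz => by rw [(mem_filter.1 hz).2], sum_const, nsmul_eq_mul]
    refine mul_le_mul_of_nonneg_right (Nat.cast_le.2 ?_) (gaussW_pos _ _).le
    refine (DiophantineInequality.card_shift_le (Korobov.box (Icc 1 P) t)
      (fun x => ((∑ i, x i ^ k : ℕ) : ℤ)) n).trans (le_of_eq ?_)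
    rw [powerDiagonal]
    simp only [Nat.cast_inj]
  · rw [← mul_sum, mul_comm]
    calc _ ≤ G * (C₀ * (P : ℝ) ^ (2 * t - k) * (P : ℝ) ^ (minorSaving k / 2)) :=
          mul_le_mul (hGS _) (hdiag P hP) (Nat.cast_nonneg _) hG.le
      _ = _ := by ring

theorem exists_momentSum_hua (hk : 2 ≤ k) {l : Fin s → ℝ} (hl : ∀ i, l i ≠ 0) {η : ℝ}
    (hη : 0 < η) : ∃ C : ℝ, 0 < C ∧ ∀ P : ℕ, 1 ≤ P →
      ∫ α : ℝ, gaussK η α * ∑ i, ‖waringSum k P (l i * α)‖ ^ 2 ^ k ≤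
        C * ((P : ℝ) ^ (2 ^ k - k) * (P : ℝ) ^ (minorSaving k / 2)) := by
  obtain ⟨j, rfl⟩ : ∃ j, k = j + 1 := ⟨k - 1, by omega⟩
  rw [pow_succ' 2 j]
  have hdiag : ∃ C₀ : ℝ, 0 < C₀ ∧ ∀ P : ℕ, 1 ≤ P → (powerDiagonal (j + 1) (2 ^ j) P : ℝ) ≤
      C₀ * (P : ℝ) ^ (2 * 2 ^ j - (j + 1)) * (P : ℝ) ^ (minorSaving (j + 1) / 2) := by
    rw [← pow_succ' 2 j]
    exact exists_powerDiagonal_le_hua (k := j + 1) (by omega)
      (half_pos (minorSaving_pos (by omega)))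
  choose C hC h using fun i => exists_moment_hua hdiag hη (hl i)
  refine ⟨∑ i, C i + 1, add_pos_of_nonneg_of_pos (sum_nonneg fun i _ => (hC i).le) one_pos,
    fun P hP => ?_⟩
  simp only [mul_sum]
  rw [integral_finsetSum _ fun i _ => ?_]
  · refine (sum_le_sum fun i _ => h i P hP).trans ?_
    rw [← sum_mul]
    exact mul_le_mul_of_nonneg_right (le_add_of_nonneg_right zero_le_one) (by positivity)
  · refine integrable_kernel_mul_real hη
      (((DiophantineInequality.continuous_waringSum (j + 1) P).comp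
        (continuous_const.mul continuous_id)).norm.pow _)
      (B := (P : ℝ) ^ (2 * 2 ^ j)) fun α => ?_
    rw [Real.norm_eq_abs, abs_of_nonneg (pow_nonneg (norm_nonneg _) _)]
    exact pow_le_pow_left₀ (norm_nonneg _) (norm_waringSum_le _ _ _) _

/-- **The rest of the line.** -/
theorem eventually_off_zero (hk : 2 ≤ k) (hs : 2 ^ k + 1 ≤ s) {l : Fin s → ℝ}
    (hl : ∀ i, l i ≠ 0) (a b : Fin s) {η ε : ℝ} (hη : 0 < η) (hε : 0 < ε) :
    ∀ᶠ P : ℕ in atTop, convergentDen (l a / l b) P →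
      ∫ α in (Set.Icc (-arcWidth k l P) (arcWidth k l P))ᶜ,
        gaussK η α * ‖prodSum k P l α‖ ≤ ε * (P : ℝ) ^ (s - k) := by
  obtain ⟨C₁, hC₁, h₁⟩ := exists_momentSum_hua hk hl hη
  obtain ⟨C₂, hC₂, h₂⟩ := exists_momentSum_hua hk hl (show 0 < η / √2 by positivity)
  have hL : 0 < 1 + ∑ i, |l i| :=
    add_pos_of_pos_of_nonneg one_pos (sum_nonneg fun i _ => abs_nonneg _)
  obtain ⟨δ, hδ⟩ : ∃ δ, δ = minorSaving k := ⟨_, rfl⟩
  have hδ0 : 0 < δ := hδ ▸ minorSaving_pos (by omega)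
  have hδ10 : δ ≤ 1 / 10 := by
    rw [hδ]
    refine (min_le_left _ _).trans ?_
    linarith [WaringAsymptotic.weylSaving_le k, weylSaving_pos k]
  obtain ⟨c, hc⟩ : ∃ c, c = C₁ + 2 / (π * η ^ 2) * C₂ := ⟨_, rfl⟩
  filter_upwards [not_both_large hk (a := l a) (hl b) hL,
    (tendsto_natCast_rpow (half_pos hδ0)).eventually (eventually_ge_atTop (c / ε)),
    eventually_ge_atTop 1] with P hboth hbig hP1 hconv
  have hP1r : (1 : ℝ) ≤ P := by exact_mod_cast hP1
  have hP0 : (0 : ℝ) < P := by linarith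
  obtain ⟨T, hT⟩ : ∃ T, T = (P : ℝ) ^ (1 / 20 : ℝ) := ⟨_, rfl⟩
  have hT0 : 0 < T := hT ▸ by positivity
  obtain ⟨E, hE⟩ : ∃ E, E = Real.exp (-(π * η ^ 2 / 2) * T ^ 2) := ⟨_, rfl⟩
  have hE0 : 0 < E := hE ▸ Real.exp_pos _
  obtain ⟨g, hg⟩ : ∃ g : ℝ → ℝ, g = fun α =>
      (P : ℝ) ^ (-δ) * (P : ℝ) ^ (s - 2 ^ k) *
          (gaussK η α * ∑ i, ‖waringSum k P (l i * α)‖ ^ 2 ^ k) +
        E * (P : ℝ) ^ (s - 2 ^ k) *
          (gaussK (η / √2) α * ∑ i, ‖waringSum k P (l i * α)‖ ^ 2 ^ k) := ⟨_, rfl⟩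
  have hi₁ := DiophantineInequality.integrable_moment hη k P (2 ^ k) l
  have hi₂ := DiophantineInequality.integrable_moment (show 0 < η / √2 by positivity) k P (2 ^ k) l
  have hgint : Integrable g := hg ▸ (hi₁.const_mul _).add (hi₂.const_mul _)
  have hG0 : ∀ α : ℝ, 0 ≤ ∑ i, ‖waringSum k P (l i * α)‖ ^ 2 ^ k :=
    fun α => sum_nonneg fun i _ => by positivity
  have hg0 : ∀ α, 0 ≤ g α := fun α => by
    have := hG0 α
    have := gaussK_pos η α
    have := gaussK_pos (η / √2) α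
    rw [hg]
    positivity
  refine (setIntegral_mono_on ?_ hgint.integrableOn measurableSet_Icc.compl fun α hα => ?_).trans
    ((setIntegral_le_integral hgint (ae_of_all _ hg0)).trans ?_)
  · exact (integrable_kernel_mul_real hη (continuous_prodSum k P l).norm fun α => by
      rw [norm_norm]; exact norm_prodSum_le k P l α).integrableOn
  · have hsub : ∀ (j : Fin s) (e : ℝ), 0 ≤ e → ‖waringSum k P (l j * α)‖ ≤ e * P →
        ‖prodSum k P l α‖ ≤
          e * (P : ℝ) ^ (s - 2 ^ k) * ∑ i, ‖waringSum k P (l i * α)‖ ^ 2 ^ k :=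
      fun j e he hje => by
        rw [prodSum, norm_prod]
        exact prod_le_sum_pow (fun i => ‖waringSum k P (l i * α)‖) (Nat.cast_nonneg P)
          (fun i => norm_nonneg _) (fun i => norm_waringSum_le _ _ _) j hje he hs
    have hK := gaussK_pos η α
    have hK2 := gaussK_pos (η / √2) α
    have hGα := hG0 α
    rw [hg]
    dsimp only
    rcases le_or_gt |α| T with hαT | hαT
    · refine le_trans ?_ (le_add_of_nonneg_right (by positivity))
      have hout : arcWidth k l P < |α| := by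
        rw [Set.mem_compl_iff, Set.mem_Icc] at hα
        by_contra hle
        exact hα (abs_le.1 (not_lt.1 hle))
      rw [mul_left_comm]
      refine mul_le_mul_of_nonneg_left ?_ hK.le
      have he : (P : ℝ) ^ (1 - δ) = (P : ℝ) ^ (-δ) * P := by
        rw [← Real.rpow_add_one hP0.ne']
        ring_nf
      rcases hboth hconv α hout (hT ▸ hαT) with h | h
      · exact hsub a _ (by positivity) (by rw [← he, hδ]; exact h)
      · exact hsub b _ (by positivity) (by rw [← he, hδ]; exact h)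
    · refine le_trans ?_ (le_add_of_nonneg_left (by positivity))
      have hsplit : gaussK η α ≤ E * gaussK (η / √2) α := by
        simp only [hE, gaussK]
        rw [← Real.exp_add, Real.exp_le_exp, div_pow, Real.sq_sqrt two_pos.le]
        have h2 : T ^ 2 ≤ α ^ 2 := sq_le_sq.2 (by rw [abs_of_pos hT0]; linarith)
        have := mul_le_mul_of_nonneg_left h2 (show 0 ≤ π * η ^ 2 / 2 by positivity)
        linarith
      exact (mul_le_mul hsplit (hsub a 1 zero_le_one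
        (by rw [one_mul]; exact norm_waringSum_le _ _ _))
        (norm_nonneg _) (by positivity)).trans (le_of_eq (by ring))
  · rw [hg, integral_add (hi₁.const_mul _) (hi₂.const_mul _), integral_const_mul,
      integral_const_mul]
    have hEd : E ≤ 2 / (π * η ^ 2) * (P : ℝ) ^ (-δ) := by
      have h1 : E ≤ 1 / (π * η ^ 2 / 2 * T ^ 2) := by
        rw [hE, neg_mul, Real.exp_neg, one_div]
        refine inv_anti₀ (by positivity) ?_
        linarith [Real.add_one_le_exp (π * η ^ 2 / 2 * T ^ 2)]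
      refine h1.trans ?_
      have h2 : (P : ℝ) ^ δ ≤ T ^ 2 := by
        rw [hT, ← Real.rpow_natCast, ← Real.rpow_mul hP0.le]
        exact Real.rpow_le_rpow_of_exponent_le hP1r (by push_cast; linarith)
      rw [Real.rpow_neg hP0.le, show 2 / (π * η ^ 2) * ((P : ℝ) ^ δ)⁻¹ =
        1 / (π * η ^ 2 / 2 * (P : ℝ) ^ δ) by field_simp]
      exact one_div_le_one_div_of_le (by positivity)
        (mul_le_mul_of_nonneg_left h2 (by positivity))
    obtain ⟨Z, hZ⟩ : ∃ Z : ℝ, Z = (P : ℝ) ^ (s - 2 ^ k) *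
        ((P : ℝ) ^ (2 ^ k - k) * (P : ℝ) ^ (δ / 2)) := ⟨_, rfl⟩
    have hZ' : (P : ℝ) ^ (-δ) * Z * (P : ℝ) ^ (δ / 2) = (P : ℝ) ^ (s - k) := by
      have := (Nat.lt_two_pow_self (n := k))
      rw [hZ, show s - k = s - 2 ^ k + (2 ^ k - k) by omega, pow_add,
        show (P : ℝ) ^ (-δ) * ((P : ℝ) ^ (s - 2 ^ k) * ((P : ℝ) ^ (2 ^ k - k) *
          (P : ℝ) ^ (δ / 2))) * (P : ℝ) ^ (δ / 2) = ((P : ℝ) ^ (-δ) * (P : ℝ) ^ (δ / 2) *
            (P : ℝ) ^ (δ / 2)) * ((P : ℝ) ^ (s - 2 ^ k) * (P : ℝ) ^ (2 ^ k - k)) by ring,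
        ← Real.rpow_add hP0, ← Real.rpow_add hP0, show -δ + δ / 2 + δ / 2 = 0 by ring,
        Real.rpow_zero, one_mul]
    have h3 := mul_le_mul_of_nonneg_left (h₁ P hP1)
      (show 0 ≤ (P : ℝ) ^ (-δ) * (P : ℝ) ^ (s - 2 ^ k) by positivity)
    have h4 := mul_le_mul_of_nonneg_left (h₂ P hP1)
      (show 0 ≤ E * (P : ℝ) ^ (s - 2 ^ k) by positivity)
    rw [← hδ] at h3 h4
    have hZ0 : 0 ≤ Z := hZ ▸ by positivity
    have h5 : E * (C₂ * Z) ≤ 2 / (π * η ^ 2) * (P : ℝ) ^ (-δ) * (C₂ * Z) :=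
      mul_le_mul_of_nonneg_right hEd (by positivity)
    have h6 : c * ((P : ℝ) ^ (-δ) * Z) ≤ ε * (P : ℝ) ^ (s - k) := by
      rw [div_le_iff₀ hε] at hbig
      refine (mul_le_mul_of_nonneg_right hbig (by positivity)).trans (le_of_eq ?_)
      rw [← hZ']
      ring
    rw [hc] at h6
    rw [hZ] at h5 h6
    linarith

end FA.HuaInequality

end
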